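import Fermat.Agent.FreyQuotient.Toric
import Fermat.Agent.Isogeny.Descent
import Fermat.Agent.FreyHeight.FreyNode
import Fermat.Agent.VariableChangePoints.Basic
import Fermat.Agent.Frobenius.Existence
import Fermat.Agent.ThreeFive.Torsion

/-!
# An integral model of the quotient curve

An integral model of the quotient of the Frey curve by a Galois-stable line, with its rational
point of order `p`, and its reduction at the bad primes different from `p`.
-/

set_option autoImplicit false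

namespace Fermat.Agent.FreyQuotient

open WeierstrassCurve Fermat.Agent.ECReduction Fermat.Agent.Isogeny Fermat.Agent.FreyUnramified
open Fermat.Agent.FreyHeight (freyQbar FreyNode exists_freyNode)
open scoped WeierstrassCurve.Affine

local notation "Qb" => AlgebraicClosure ℚ

section Scale

variable {K : Type*} [Field K] {A : ValuationSubring K} {W V : WeierstrassCurve.Affine K} {u : K}

/-- Scaling by a unit preserves singularity of the reduction. -/
lemma sing_scale_iff (hu : A.valuation u = 1) (h1 : W.a₁ = u * V.a₁)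
    (h2 : W.a₂ = u ^ 2 * V.a₂) (h3 : W.a₃ = u ^ 3 * V.a₃) (h4 : W.a₄ = u ^ 4 * V.a₄) (x y : K) :
    Sing A W (u ^ 2 * x) (u ^ 3 * y) ↔ Sing A V x y := by
  have hpow : ∀ (n : ℕ) (z : K), A.valuation (u ^ n * z) = A.valuation z := fun n z => by
    rw [map_mul, map_pow, hu, one_pow, one_mul]
  have e1 : 2 * (u ^ 3 * y) + W.a₁ * (u ^ 2 * x) + W.a₃ =
      u ^ 3 * (2 * y + V.a₁ * x + V.a₃) := by rw [h1, h3]; ring
  have e2 : W.a₁ * (u ^ 3 * y) - (3 * (u ^ 2 * x) ^ 2 + 2 * W.a₂ * (u ^ 2 * x) + W.a₄) =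
      u ^ 4 * (V.a₁ * y - (3 * x ^ 2 + 2 * V.a₂ * x + V.a₄)) := by rw [h1, h2, h4]; ring
  constructor
  · intro h
    exact ⟨hpow 2 x ▸ h.memX, hpow 3 y ▸ h.memY, by
      have := h.hY; rwa [e1, hpow] at this, by have := h.hX; rwa [e2, hpow] at this⟩
  · intro h
    exact ⟨by rw [hpow]; exact h.memX, by rw [hpow]; exact h.memY,
      by rw [e1, hpow]; exact h.hY, by rw [e2, hpow]; exact h.hX⟩

/-- Scaling the variables by `u` scales the coefficients. -/
lemma eq_smul_of_scaled (hu : u ≠ 0) (h1 : W.a₁ = u * V.a₁) (h2 : W.a₂ = u ^ 2 * V.a₂)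
    (h3 : W.a₃ = u ^ 3 * V.a₃) (h4 : W.a₄ = u ^ 4 * V.a₄) (h6 : W.a₆ = u ^ 6 * V.a₆) :
    V = (⟨Units.mk0 u hu, 0, 0, 0⟩ : VariableChange K) • W := by
  refine WeierstrassCurve.ext ?_ ?_ ?_ ?_ ?_ <;>
    simp only [variableChange_a₁, variableChange_a₂, variableChange_a₃, variableChange_a₄,
      variableChange_a₆, Units.val_inv_eq_inv_val, Units.val_mk0, h1, h2, h3, h4, h6, mul_zero,
      zero_mul, add_zero, sub_zero, zero_pow two_ne_zero, zero_pow three_ne_zero, inv_pow] <;>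
    rw [inv_mul_cancel_left₀ (by positivity)]

/-- Scaling the variables by `u` scales `Δ` and `c₄`. -/
lemma invariants_of_scaled (hu : u ≠ 0)
    (hV : V = (⟨Units.mk0 u hu, 0, 0, 0⟩ : VariableChange K) • W) :
    W.Δ = u ^ 12 * V.Δ ∧ W.c₄ = u ^ 4 * V.c₄ := by
  constructor <;> subst hV
  · rw [variableChange_Δ, Units.val_inv_eq_inv_val, Units.val_mk0, inv_pow,
      mul_inv_cancel_left₀ (pow_ne_zero _ hu)]
  · rw [variableChange_c₄, Units.val_inv_eq_inv_val, Units.val_mk0, inv_pow,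
      mul_inv_cancel_left₀ (pow_ne_zero _ hu)]

end Scale

/-- A rational whose denominator is a power of `p` becomes integral after multiplication by every
large power of `p`. -/
lemma exists_pow_mul_eq_intCast {p : ℕ} (r : ℚ)
    (h : ∀ l : ℕ, l.Prime → l ≠ p → ¬ l ∣ r.den) :
    ∃ k : ℕ, ∀ m, k ≤ m → ∃ n : ℤ, (n : ℚ) = (p : ℚ) ^ m * r := by
  have hd : r.den = p ^ r.den.primeFactorsList.length :=
    Nat.eq_prime_pow_of_unique_prime_dvd r.den_nz fun {l} hl hdvd => by
      by_contra hne; exact h l hl hne hdvd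
  generalize r.den.primeFactorsList.length = L at hd
  refine ⟨L, fun m hm => ⟨(p : ℤ) ^ (m - L) * r.num, ?_⟩⟩
  have : (r.num : ℚ) = r * (r.den : ℚ) := (Rat.mul_den_eq_num r).symm
  push_cast
  rw [this, hd]
  push_cast
  calc (p : ℚ) ^ (m - L) * (r * (p : ℚ) ^ L)
      = (p : ℚ) ^ (m - L + L) * r := by rw [pow_add]; ring
    _ = (p : ℚ) ^ m * r := by rw [Nat.sub_add_cancel hm]

lemma not_dvd_den_of_mem {A : ValuationSubring Qb} {l : ℕ} (hA : A.LiesOverPrime l) (hl : l.Prime)
    {r : ℚ} (h : A.valuation (algebraMap ℚ Qb r) ≤ 1) : ¬ l ∣ r.den := by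
  intro hd
  have hnum : ¬ (l : ℤ) ∣ r.num := fun hn => hl.ne_one <| Nat.eq_one_of_dvd_coprimes r.reduced
    (Int.natCast_dvd.mp hn) hd
  have e : algebraMap ℚ Qb r * ((r.den : ℤ) : Qb) = (r.num : Qb) := by
    rw [← map_intCast (algebraMap ℚ Qb), ← map_intCast (algebraMap ℚ Qb) r.num, ← map_mul]
    congr 1
    exact_mod_cast Rat.mul_den_eq_num r
  have h1 := valuation_intCast_eq_one hA hl hnum
  rw [← e, map_mul] at h1
  exact h1.not_lt (mul_lt_one_of_nonneg_of_lt_one_right h zero_le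
    (valuation_intCast_lt_one hA (Int.natCast_dvd_natCast.mpr hd)))

variable (P : FreyPackage)

/-- The Frey curve over `ℚ`, from its integral model. -/
noncomputable abbrev freyRat : WeierstrassCurve.Affine ℚ :=
  P.freyCurveInt.map (Int.castRingHom ℚ)

instance freyQbar_isElliptic : (freyQbar P).IsElliptic := by
  refine ⟨?_⟩
  show IsUnit ((P.freyCurveInt.map (Int.castRingHom ℚ)).map (algebraMap ℚ Qb)).Δ
  rw [map_Δ, map_Δ, isUnit_iff_ne_zero,
    _root_.map_ne_zero, eq_intCast, Int.cast_ne_zero]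
  exact FreyModel.freyCurveInt_Δ_ne_zero P

open scoped Classical in
/-- The reduction type of an integral model at a bad prime of the Frey curve. -/
structure QuotientModel (C : AddSubgroup (freyQbar P).Point) (R : (freyQbar P).Point)
    (W : WeierstrassCurve ℤ)
    (Q : ((W.map (Int.castRingHom ℚ))⁄(AlgebraicClosure ℚ)).Point) : Prop where
  fixed : ∀ σ : AlgebraicClosure ℚ ≃ₐ[ℚ] AlgebraicClosure ℚ, σ • Q = Q
  order : addOrderOf Q = P.p
  multiplicative : ∀ l : ℕ, l.Prime → l ≠ P.p → (l : ℤ) ∣ P.a * P.b * P.c →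
    (l : ℤ) ∣ W.Δ ∧ ¬ (l : ℤ) ∣ W.c₄
  toric : ∀ l : ℕ, l.Prime → l ≠ P.p → (l : ℤ) ∣ P.a * P.b * P.c →
    ∀ A : ValuationSubring (AlgebraicClosure ℚ), A.LiesOverPrime l →
      (∀ S ∈ C, S ∈ goodSubgroup (curveRed P.freyCurveInt A)) →
      R ∉ goodSubgroup (curveRed P.freyCurveInt A) → ¬ W.InZeroComponentAt A Q
  nontoric : ∀ l : ℕ, l.Prime → l ≠ P.p → (l : ℤ) ∣ P.a * P.b * P.c →
    ∀ A : ValuationSubring (AlgebraicClosure ℚ), A.LiesOverPrime l →
      R ∈ goodSubgroup (curveRed P.freyCurveInt A) →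
      (∃ S ∈ C, S ∉ goodSubgroup (curveRed P.freyCurveInt A)) → W.InZeroComponentAt A Q

/-- The order of a line is a unit at the places away from `p`. -/
lemma valuation_card_eq_one {C : AddSubgroup (freyQbar P).Point} (hcard : Nat.card C = P.p)
    {l : ℕ} (hl : l.Prime) (hne : l ≠ P.p) {A : ValuationSubring Qb} (hA : A.LiesOverPrime l) :
    A.valuation (Nat.card C : Qb) = 1 := by
  rw [hcard, show ((P.p : ℕ) : Qb) = ((P.p : ℤ) : Qb) by norm_num]
  exact valuation_intCast_eq_one hA hl fun hd =>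
    hne ((Nat.prime_dvd_prime_iff_eq hl P.pp).mp (Int.natCast_dvd_natCast.mp hd))

open scoped Classical in
/-- The Vélu quotient by a stable line of order `p` becomes integral after scaling by a power
of `p`. -/
theorem exists_integralScaling (C : AddSubgroup (freyQbar P).Point) [Finite C]
    (hcard : Nat.card C = P.p) (hC : IsStable (E := freyRat P) C) :
    ∃ (W : WeierstrassCurve ℤ) (k : ℕ),
      let WQ : WeierstrassCurve.Affine Qb := (W.map (Int.castRingHom ℚ))⁄Qb
      let V := veluCurve (W := freyQbar P) C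
      let u : Qb := (P.p : Qb) ^ k
      WQ.a₁ = u * V.a₁ ∧ WQ.a₂ = u ^ 2 * V.a₂ ∧ WQ.a₃ = u ^ 3 * V.a₃ ∧
        WQ.a₄ = u ^ 4 * V.a₄ ∧ WQ.a₆ = u ^ 6 * V.a₆ := by
  have : ((freyRat P)⁄Qb).IsElliptic := freyQbar_isElliptic P
  have hodd : Odd (Nat.card C) := hcard ▸ P.hp_odd
  set V := veluCurve (W := freyQbar P) C with hVdef
  -- rational coefficients with denominators powers of `p`
  have : IsGalois ℚ Qb := ThreeFive.isGalois_Qbar
  obtain ⟨E', e1, e2, e3, hE'⟩ := exists_veluBase hC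
  have hden : ∀ l : ℕ, l.Prime → l ≠ P.p → ¬ l ∣ E'.a₄.den ∧ ¬ l ∣ E'.a₆.den := by
    intro l hl hne
    obtain ⟨A, hA⟩ := Frobenius.exists_liesOverPrime (L := Qb) hl
    have hI := integralCoeffs_veluCurve hodd (curveRed P.freyCurveInt A).integralCoeffs
      (valuation_card_eq_one P hcard hl hne hA)
    rw [hE'] at hI
    exact ⟨not_dvd_den_of_mem hA hl hI.a₄, not_dvd_den_of_mem hA hl hI.a₆⟩
  obtain ⟨k4, hk4⟩ := exists_pow_mul_eq_intCast (p := P.p) E'.a₄ fun l h h' => (hden l h h').1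
  obtain ⟨k6, hk6⟩ := exists_pow_mul_eq_intCast (p := P.p) E'.a₆ fun l h h' => (hden l h h').2
  set k := k4 + k6
  obtain ⟨n4, hn4⟩ := hk4 (4 * k) (by omega)
  obtain ⟨n6, hn6⟩ := hk6 (6 * k) (by omega)
  set W : WeierstrassCurve ℤ := ⟨(P.p : ℤ) ^ k * P.freyCurveInt.a₁,
    (P.p : ℤ) ^ (2 * k) * P.freyCurveInt.a₂, (P.p : ℤ) ^ (3 * k) * P.freyCurveInt.a₃, n4, n6⟩
  set WQ : WeierstrassCurve.Affine Qb := (W.map (Int.castRingHom ℚ))⁄Qb with hWQ
  set u : Qb := (P.p : Qb) ^ k with hudef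
  have v4 : V.a₄ = algebraMap ℚ Qb E'.a₄ := congrArg (fun X : Affine Qb => X.a₄) hE'
  have v6 : V.a₆ = algebraMap ℚ Qb E'.a₆ := congrArg (fun X : Affine Qb => X.a₆) hE'
  have c1 : WQ.a₁ = u * V.a₁ := by
    simp [hWQ, hudef, hVdef, W, veluCurve, WeierstrassCurve.map, WeierstrassCurve.baseChange]
  have c2 : WQ.a₂ = u ^ 2 * V.a₂ := by
    simp [hWQ, hudef, hVdef, W, veluCurve, WeierstrassCurve.map,
      WeierstrassCurve.baseChange, ← pow_mul, mul_comm k]
  have c3 : WQ.a₃ = u ^ 3 * V.a₃ := by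
    simp [hWQ, hudef, hVdef, W, veluCurve, WeierstrassCurve.map,
      WeierstrassCurve.baseChange, ← pow_mul, mul_comm k]
  have c4 : WQ.a₄ = u ^ 4 * V.a₄ := by
    rw [v4, hudef, ← pow_mul, mul_comm k, ← map_natCast (algebraMap ℚ Qb), ← map_pow, ← map_mul,
      ← hn4]
    rfl
  have c6 : WQ.a₆ = u ^ 6 * V.a₆ := by
    rw [v6, hudef, ← pow_mul, mul_comm k, ← map_natCast (algebraMap ℚ Qb), ← map_pow, ← map_mul,
      ← hn6]
    rfl
  exact ⟨W, k, c1, c2, c3, c4, c6⟩

/-- At a bad prime the Frey curve has multiplicative reduction. -/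
lemma freyQbar_invariants {l : ℕ} (hl : l.Prime) (hdvd : (l : ℤ) ∣ P.a * P.b * P.c)
    {A : ValuationSubring Qb} (hA : A.LiesOverPrime l) :
    A.valuation (freyQbar P).c₄ = 1 ∧ A.valuation (freyQbar P).Δ < 1 := by
  have hd := (FreyModel.dvd_freyCurveInt_Δ_iff P hl).mpr hdvd
  have hc := FreyModel.freyCurveInt_isSemistableModel P l hl hd
  constructor
  · rw [show (freyQbar P).c₄ = (P.freyCurveInt.c₄ : Qb) by simp [WeierstrassCurve.baseChange]]
    exact valuation_intCast_eq_one hA hl hc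
  · rw [show (freyQbar P).Δ = (P.freyCurveInt.Δ : Qb) by simp [WeierstrassCurve.baseChange]]
    exact valuation_intCast_lt_one hA hd

/-- At a bad prime the node of the Frey curve lifts to a point of order two. -/
lemma exists_node {l : ℕ} (hl : l.Prime) (hdvd : (l : ℤ) ∣ P.a * P.b * P.c)
    {A : ValuationSubring Qb} (hA : A.LiesOverPrime l) : ∃ r s, Node A (freyQbar P) r s := by
  obtain ⟨N⟩ := exists_freyNode hl hdvd hA
  refine ⟨N.r, -N.r / 2, (Affine.equation_iff_nonsingular ..).mp N.lift.eqn, N.lift.two,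
    ⟨(A.valuation_le_one_iff _).mpr N.lift.r_mem, (A.valuation_le_one_iff _).mpr N.lift.s_mem,
      ?_, N.lift.small⟩, (freyQbar_invariants P hl hdvd hA).1⟩
  rw [N.lift.two, map_zero]; exact zero_lt_one

open scoped Classical in
/-- The quotient by a line of order `p` keeps multiplicative reduction at the bad primes `≠ p`. -/
theorem veluCurve_multiplicative (C : AddSubgroup (freyQbar P).Point) [Finite C]
    (hcard : Nat.card C = P.p) {l : ℕ} (hl : l.Prime) (hne : l ≠ P.p)
    (hdvd : (l : ℤ) ∣ P.a * P.b * P.c) {A : ValuationSubring Qb} (hA : A.LiesOverPrime l) :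
    A.valuation (veluCurve (W := freyQbar P) C).c₄ = 1 ∧
      A.valuation (veluCurve (W := freyQbar P) C).Δ < 1 := by
  have hodd : Odd (Nat.card C) := hcard ▸ P.hp_odd
  have hn := valuation_card_eq_one P hcard hl hne hA
  have hE := (curveRed P.freyCurveInt A).integralCoeffs
  rcases all_good_or_all_bad (C := C) hE (hcard ▸ P.pp) with hg | hb
  · obtain ⟨r, s, hN⟩ := exists_node P hl hdvd hA
    exact (node_image hodd hE hn hg hN
      (Y := -((freyQbar P).a₁ * Xv C (Affine.Point.some r s hN.ns) + (freyQbar P).a₃) / 2)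
      (by field_simp; ring)).2.2
  · exact bad_invariants hodd hE hn hb (freyQbar_invariants P hl hdvd hA).1
      (freyQbar_invariants P hl hdvd hA).2

open scoped Classical in
/-- Vélu's coordinates of a point fixed modulo `C` are rational. -/
theorem Xv_Gv_fixed (C : AddSubgroup (freyQbar P).Point) [Finite C]
    (hC : IsStable (E := freyRat P) C) {R : (freyQbar P).Point} (σ : Qb ≃ₐ[ℚ] Qb)
    (hfix : σ • R - R ∈ C) : σ (Xv C R) = Xv C R ∧ σ (Gv C R) = Gv C R := by
  have : ((freyRat P)⁄Qb).IsElliptic := freyQbar_isElliptic P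
  constructor
  · rw [← Xv_smul hC, ← add_sub_cancel R (σ • R)]
    exact Xv_add C hfix
  · rw [← Gv_smul hC, ← add_sub_cancel R (σ • R)]
    exact Gv_add C hfix

open scoped Classical in
/-- **The integral model of the quotient.** -/
theorem exists_quotientModel (C : AddSubgroup (freyQbar P).Point) (hcard : Nat.card C = P.p)
    (hst : ∀ (σ : AlgebraicClosure ℚ ≃ₐ[ℚ] AlgebraicClosure ℚ), ∀ S ∈ C, σ • S ∈ C)
    {R : (freyQbar P).Point} (hpR : P.p • R = 0) (hR : R ∉ C)
    (hfix : ∀ σ : AlgebraicClosure ℚ ≃ₐ[ℚ] AlgebraicClosure ℚ, σ • R - R ∈ C) :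
    ∃ (W : WeierstrassCurve ℤ)
      (Q : ((W.map (Int.castRingHom ℚ))⁄(AlgebraicClosure ℚ)).Point) (k : ℕ),
      W.Δ ≠ 0 ∧ QuotientModel P C R W Q ∧
      ∀ (_ : Finite C), ((W.Δ : AlgebraicClosure ℚ) =
          (P.p : AlgebraicClosure ℚ) ^ (12 * k) * (veluCurve (W := freyQbar P) C).Δ ∧
        (W.c₄ : AlgebraicClosure ℚ) =
          (P.p : AlgebraicClosure ℚ) ^ (4 * k) * (veluCurve (W := freyQbar P) C).c₄) := by
  have hfin : Finite C := Nat.finite_of_card_ne_zero (by rw [hcard]; exact P.hp0)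
  have : ((freyRat P)⁄Qb).IsElliptic := freyQbar_isElliptic P
  have hodd : Odd (Nat.card C) := hcard ▸ P.hp_odd
  have hC : IsStable (E := freyRat P) C := hst
  set V := veluCurve (W := freyQbar P) C with hVdef
  have hn : ∀ {l : ℕ}, l.Prime → l ≠ P.p → ∀ A : ValuationSubring Qb, A.LiesOverPrime l →
      A.valuation (Nat.card C : Qb) = 1 := fun hl hne A hA => valuation_card_eq_one P hcard hl hne hA
  have hE : ∀ A : ValuationSubring Qb, IntegralCoeffs A (freyQbar P) := fun A =>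
    (curveRed P.freyCurveInt A).integralCoeffs
  obtain ⟨W, k, c1, c2, c3, c4, c6⟩ := exists_integralScaling P C hcard hC
  set WQ : WeierstrassCurve.Affine Qb := (W.map (Int.castRingHom ℚ))⁄Qb with hWQ
  set u : Qb := (P.p : Qb) ^ k with hudef
  have hu0 : u ≠ 0 := pow_ne_zero _ (Nat.cast_ne_zero.mpr P.hp0)
  set D : VariableChange Qb := ⟨Units.mk0 u hu0, 0, 0, 0⟩ with hD
  have hV : V = D • WQ := eq_smul_of_scaled hu0 c1 c2 c3 c4 c6
  obtain ⟨hΔ, hc₄⟩ : (W.Δ : Qb) = (P.p : Qb) ^ (12 * k) * V.Δ ∧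
      (W.c₄ : Qb) = (P.p : Qb) ^ (4 * k) * V.c₄ := by
    rw [mul_comm 12 k, mul_comm 4 k, pow_mul, pow_mul]
    simpa [hWQ, WeierstrassCurve.baseChange] using invariants_of_scaled hu0 hV
  have hWΔ : W.Δ ≠ 0 := by
    intro h0
    rw [h0, Int.cast_zero, eq_comm, mul_eq_zero,
      or_iff_right (pow_ne_zero _ (Nat.cast_ne_zero.mpr P.hp0))] at hΔ
    exact veluCurve_Δ_ne_zero hodd hΔ
  set Q := VariableChangePoints.pointAddEquiv hV (veluHom hodd R) with hQdef
  have hns := nonsingular_veluPoint hodd hR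
  have hQ : Q = Affine.Point.some _ _ (VariableChangePoints.nonsingular_map hV hns) := by
    rw [hQdef, veluHom_apply, veluMap_of_notMem hodd hR]; rfl
  set X₁ := Xv C R
  set Y₁ := (Gv C R - (freyQbar P).a₁ * X₁ - (freyQbar P).a₃) / 2
  have hQ' : ∀ (A : ValuationSubring Qb), A.valuation u = 1 →
      (W.InZeroComponentAt A Q ↔ ¬ Sing A V X₁ Y₁) := by
    intro A hu
    rw [inZeroComponentAt_iff W Q, ← not_iff_not, not_not, ← singP_iff (curveRed W A), hQ]
    refine Iff.trans ?_ (sing_scale_iff hu c1 c2 c3 c4 X₁ Y₁)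
    simp only [SingP, VariableChangePoints.mapX, VariableChangePoints.mapY, hD, Units.val_mk0,
      add_zero, mul_zero, zero_mul]
    rfl
  have hvu : ∀ {l : ℕ}, l.Prime → l ≠ P.p → ∀ A : ValuationSubring Qb, A.LiesOverPrime l →
      A.valuation u = 1 := fun hl hne A hA => by
    rw [hudef, map_pow, ← hcard, hn hl hne A hA, one_pow]
  have hgood : ∀ (A : ValuationSubring Qb) (S : (freyQbar P).Point),
      S ∈ goodSubgroup (curveRed P.freyCurveInt A) ↔ ¬ SingP A S := fun A S => by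
    rw [singP_iff (curveRed P.freyCurveInt A), not_not]
  refine ⟨W, Q, k, hWΔ, ⟨?_, ?_, ?_, ?_, ?_⟩, fun _ => ⟨hΔ, hc₄⟩⟩
  · -- Galois invariance
    intro σ
    obtain ⟨hXf, hGf⟩ : σ X₁ = X₁ ∧ σ (Gv C R) = Gv C R := Xv_Gv_fixed P C hC σ (hfix σ)
    have hYf : σ Y₁ = Y₁ := by
      simp only [Y₁, map_div₀, map_sub, map_mul, map_ofNat, hXf, hGf]
      simp [WeierstrassCurve.baseChange]
    rw [hQ, Affine.Point.algEquiv_smul_def, Affine.Point.map_some]
    congr 1
    · simp only [VariableChangePoints.mapX, hD, Units.val_mk0, add_zero, hudef, map_mul, map_pow,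
        map_natCast, AlgEquiv.coe_toAlgHom]
      exact congrArg _ hXf
    · simp only [VariableChangePoints.mapY, hD, Units.val_mk0, add_zero, mul_zero, zero_mul, hudef,
        map_mul, map_pow, map_natCast, AlgEquiv.coe_toAlgHom]
      exact congrArg _ hYf
  · have := Fact.mk P.pp
    refine addOrderOf_eq_prime ?_ ?_
    · rw [hQdef, ← map_nsmul, ← map_nsmul, hpR, map_zero, map_zero]
    · rw [hQ]; exact Affine.Point.some_ne_zero _
  · intro l hl hne hdvd
    obtain ⟨A, hA⟩ := Frobenius.exists_liesOverPrime (L := Qb) hl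
    have key : A.valuation V.c₄ = 1 ∧ A.valuation V.Δ < 1 :=
      veluCurve_multiplicative P C hcard hl hne hdvd hA
    have hup : ∀ n, A.valuation ((P.p : Qb) ^ n) = 1 := fun n => by
      rw [map_pow, ← hcard, hn hl hne A hA, one_pow]
    refine ⟨?_, fun hd => ?_⟩
    · by_contra hd
      have h := valuation_intCast_eq_one hA hl hd
      rw [hΔ, map_mul, hup, one_mul] at h
      exact key.2.ne h
    · have h := valuation_intCast_lt_one hA hd
      rw [hc₄, map_mul, hup, one_mul, key.1] at h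
      exact lt_irrefl _ h
  · intro l hl hne hdvd A hA hCg hRb
    rw [hQ' A (hvu hl hne A hA), not_not]
    obtain ⟨r, s, hN⟩ := exists_node P hl hdvd hA
    rw [hgood, not_not] at hRb
    rcases R with _ | ⟨x, y, h⟩
    · exact absurd (zero_mem C) hR
    exact toric_sing hodd (hE A) (hn hl hne A hA) (fun S hS => (hgood A S).mp (hCg S hS)) hN h hR
      hRb hns.1 rfl
  · intro l hl hne hdvd A hA hRg hCb
    rw [hQ' A (hvu hl hne A hA)]
    obtain ⟨S, hS, hSb⟩ := hCb
    rw [hgood, not_not] at hSb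
    rcases all_good_or_all_bad (C := C) (hE A) (hcard ▸ P.pp) with hg | hb
    · exact absurd hSb (hg S hS)
    rw [hgood] at hRg
    rcases R with _ | ⟨x, y, h⟩
    · exact absurd (zero_mem C) hR
    have hxA : x ∈ A := by
      by_contra hx
      exact Affine.Point.some_ne_zero h ((hE A).eq_zero_of_nsmul_eq_zero
        (P := Affine.Point.some x y h) hx (by rw [← hcard]; exact hn hl hne A hA) hpR)
    exact bad_not_sing hodd (hE A) (hn hl hne A hA) hb h hR hRg
      ((A.valuation_le_one_iff _).mpr hxA) hns.1 rfl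

end Fermat.Agent.FreyQuotient
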