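import Fermat.Agent.FreyQuotient.Model
import Fermat.Agent.FreyHeight.Assembly

/-!
# Quotient models of cofixed lines

The quotient model of a cofixed line, and the reduction of the large prime case to Mazur's step.
-/

set_option autoImplicit false

namespace Fermat.Agent.FreyQuotient

open Fermat.Agent.ECReduction
open Fermat.Agent.FreyHeight (CofixedLine HasQuotientModel MazurStep freyGood freyQbar
  no_cofixed_of_mazurStep)

variable {P : FreyPackage}

/-- A cofixed line is Galois stable. -/
theorem cofixedLine_stable (L : CofixedLine P) (σ : AlgebraicClosure ℚ ≃ₐ[ℚ] AlgebraicClosure ℚ)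
    {S : (freyQbar P).Point} (hS : S ∈ L.C) : σ • S ∈ L.C := by
  have h := L.C.add_mem (L.cofixed σ S (L.nsmul_eq_zero hS)) hS
  rwa [sub_add_cancel] at h

/-- Every cofixed line has a quotient model. -/
theorem hasQuotientModel (L : CofixedLine P) : HasQuotientModel L := by
  intro R hRp hR
  obtain ⟨W, Q, -, hW, hM, -⟩ := exists_quotientModel P L.C L.card_C
    (fun σ S hS => cofixedLine_stable L σ hS) hRp hR (fun σ => L.cofixed σ R hRp)
  refine ⟨W, Q, hW, hM.fixed, hM.order, fun l hl hne hdvd A hA => ⟨fun h => ?_, fun h => ?_⟩⟩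
  · obtain ⟨hd, hc⟩ := hM.multiplicative l hl hne hdvd
    exact ⟨hd, hc, hM.toric l hl hne hdvd A hA (fun S hS => h.1 hS) (h.2 R hRp hR)⟩
  · obtain ⟨hd, hc⟩ := hM.multiplicative l hl hne hdvd
    exact ⟨hd, hc, hM.nontoric l hl hne hdvd A hA h.2 (SetLike.not_le_iff_exists.mp h.1)⟩

/-- No cofixed line for `p ≥ 17`, given Mazur's theorem in the form `MazurStep`. -/
theorem noCofixedLarge_of_mazurStep (hMazur : MazurStep) (P : FreyPackage) (hp : 17 ≤ P.p) :
    ¬ WeierstrassCurve.Affine.Point.HasGaloisStableCofixedLine (K := AlgebraicClosure ℚ) ℚ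
      P.freyCurve P.p :=
  no_cofixed_of_mazurStep hMazur (fun _ L => hasQuotientModel L) P hp

end Fermat.Agent.FreyQuotient
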