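import Fermat.Agent.FreyQuotient.VeluSums

/-!
# Quotient by a subgroup reducing to the node

The quotient by a subgroup of prime order all of whose nonzero points reduce to the node.
-/

set_option autoImplicit false

namespace Fermat.Agent.FreyQuotient

open WeierstrassCurve Fermat.Agent.ECReduction Fermat.Agent.Isogeny Finset

universe u

variable {K : Type u} [Field K] [DecidableEq K] {E : WeierstrassCurve.Affine K}
  {C : AddSubgroup E.Point} [Finite C] [NeZero (2 : K)]
  {A : ValuationSubring K}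

omit [NeZero (2 : K)] in
/-- Either all points of `C` are smooth or all nonzero ones are singular. -/
lemma all_good_or_all_bad (hE : IntegralCoeffs A E) (hp : (Nat.card C).Prime) :
    (∀ Q ∈ C, ¬ SingP A Q) ∨ ∀ Q ∈ Cs C, SingP A Q := by
  by_cases h : ∀ Q ∈ Cs C, SingP A Q
  · exact Or.inr h
  refine Or.inl fun S hS => ?_
  push Not at h
  obtain ⟨Q, hQ, hQg⟩ := h
  rw [mem_Cs] at hQ
  rw [← mem_goodPts hE] at hQg ⊢
  have := Fact.mk hp
  obtain ⟨k, hk⟩ := AddSubgroup.mem_zmultiples_iff.mp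
    (mem_zmultiples_of_prime_card (G := C) (p := Nat.card C) (g := ⟨Q, hQ.2⟩) rfl
      (g' := ⟨S, hS⟩) (fun h0 => hQ.1 (congrArg Subtype.val h0)))
  have hk' : k • Q = S := congrArg Subtype.val hk
  exact hk' ▸ zsmul_mem hQg k

section

variable (hodd : Odd (Nat.card C)) (hE : IntegralCoeffs A E)
  (hn : A.valuation (Nat.card C : K) = 1) (hbad : ∀ Q ∈ Cs C, SingP A Q)

include hodd hE hn hbad

omit hodd [NeZero (2 : K)] in
lemma val_tx_ux_xs_lt {a : K} (ha : a ∈ xs C) :
    A.valuation (tx E a) < 1 ∧ A.valuation (ux E a) < 1 := by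
  obtain ⟨Q, hQ, rfl⟩ := mem_xs.mp ha
  obtain ⟨x, y, h, rfl, -, -⟩ := coords_of_mem_Cs hE hn hQ
  exact val_tx_ux_lt hE h (hbad _ hQ)

/-- Vélu's `t` and `w` are not units. -/
lemma val_tV_wV_lt : A.valuation (tV C) < 1 ∧ A.valuation (wV C) < 1 := by
  constructor
  · rw [tV_eq hodd]
    exact val_sum_lt _ fun a ha => (val_tx_ux_xs_lt hE hn hbad ha).1
  · rw [wV_eq hodd]
    exact val_sum_lt _ fun a ha => A.valuation.map_add_lt
      (val_mul_lt (val_xs_le hE hn ha) (val_tx_ux_xs_lt hE hn hbad ha).1)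
      (val_tx_ux_xs_lt hE hn hbad ha).2

/-- The quotient curve is congruent to the curve. -/
lemma bad_congr : A.valuation (E.a₄ - (veluCurve C).a₄) < 1 ∧
    A.valuation (E.a₆ - (veluCurve C).a₆) < 1 := by
  obtain ⟨ht, hw⟩ := val_tV_wV_lt hodd hE hn hbad
  constructor
  · rw [show E.a₄ - (veluCurve C).a₄ = 5 * tV C from sub_sub_cancel _ _]
    exact val_mul_lt (val_ofNat_le_one 5) ht
  · rw [show E.a₆ - (veluCurve C).a₆ = E.b₂ * tV C + 7 * wV C by
      show E.a₆ - (E.a₆ - E.b₂ * tV C - 7 * wV C) = _; ring]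
    exact A.valuation.map_add_lt (val_mul_lt (val_b₂ hE) ht) (val_mul_lt (val_ofNat_le_one 7) hw)

/-- The quotient curve keeps multiplicative reduction. -/
theorem bad_invariants (hc : A.valuation E.c₄ = 1) (hΔ : A.valuation E.Δ < 1) :
    A.valuation (veluCurve C).c₄ = 1 ∧ A.valuation (veluCurve C).Δ < 1 := by
  obtain ⟨h4, h6⟩ := bad_congr hodd hE hn hbad
  constructor
  · rw [show (veluCurve C).c₄ = E.c₄ + 240 * tV C by
      simp only [WeierstrassCurve.c₄, WeierstrassCurve.b₂, WeierstrassCurve.b₄, veluCurve]; ring,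
      Valuation.map_add_eq_of_lt_left _ (by
        rw [hc]; exact val_mul_lt (val_ofNat_le_one 240) (val_tV_wV_lt hodd hE hn hbad).1), hc]
  · have hEF := curveRed_redOf hE
    have key : ∀ {z z' : K} {b : IsLocalRing.ResidueField A}, Red (IsLocalRing.residue A) z b →
        A.valuation (z - z') < 1 → Red (IsLocalRing.residue A) z' b := fun {z z' b} h1 h2 =>
      ((h1.sub (Red.of_valuation_lt_one _ h2)).congr_right (sub_zero b)).congr_left (by ring)
    have hVF : CurveRed (IsLocalRing.residue A) (veluCurve C) (redOf hE) :=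
      ⟨hEF.a₁, hEF.a₂, hEF.a₃, key hEF.a₄ h4, key hEF.a₆ h6⟩
    exact hVF.Δ.valuation_lt_one_iff.mpr (hEF.Δ.valuation_lt_one_iff.mp hΔ)

/-- The image of a smooth point is smooth. -/
theorem bad_not_sing [E.IsElliptic] [IsAlgClosed K] {x y X Y : K} (h : E.Nonsingular x y)
    (hC : Affine.Point.some x y h ∉ C)
    (hg : ¬ Sing A E x y) (hx : A.valuation x ≤ 1) (hXY : (veluCurve C).Equation X Y)
    (hX : X = Xv C (Affine.Point.some x y h)) : ¬ Sing A (veluCurve C) X Y := by
  intro hs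
  obtain ⟨h4, h6⟩ := bad_congr hodd hE hn hbad
  apply hg
  refine Sing.of_near hE (integralCoeffs_veluCurve hodd hE hn) (by simp) (by simp) (by simp) h4 h6
    h.1 hXY ?_ hs
  rw [hX, Xv_eq_xs hodd hC]
  simp only [xc_some]
  rw [sub_add_cancel_left, Valuation.map_neg]
  refine val_sum_lt _ fun a ha => ?_
  obtain ⟨Q, hQ, rfl⟩ := mem_xs.mp ha
  obtain ⟨x', y', h', rfl, hx', -⟩ := coords_of_mem_Cs hE hn hQ
  have hd : A.valuation (x - x') = 1 := le_antisymm (A.valuation.map_sub_le hx hx')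
    (le_of_not_gt fun hlt => hg (Sing.of_near_self hE h.1 h'.1 hlt (hbad _ hQ)))
  obtain ⟨ht, hu⟩ := val_tx_ux_lt hE h' (hbad _ hQ)
  simp only [xc_some]
  exact A.valuation.map_add_lt (val_div_lt ht hd) (val_div_lt hu (by rw [map_pow, hd, one_pow]))

end

end Fermat.Agent.FreyQuotient
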