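import Fermat.Agent.ECReduction.Hom
import Mathlib.RingTheory.LocalRing.ResidueField.Basic

/-!
# Singular reduction of a point

Singular reduction of an integral point, expressed with valuations only.
-/

set_option autoImplicit false

namespace Fermat.Agent.FreyQuotient

open WeierstrassCurve Fermat.Agent.ECReduction

universe u v

variable {K : Type u} [Field K] {A : ValuationSubring K}

/-- An integral element times a non-unit is a non-unit. -/
lemma val_mul_lt {a b : K} (ha : A.valuation a ≤ 1) (hb : A.valuation b < 1) :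
    A.valuation (a * b) < 1 := by
  rw [map_mul]; exact mul_lt_one_of_nonneg_of_lt_one_right ha zero_le hb

/-- A product of integral elements is integral. -/
lemma val_mul_le {a b : K} (ha : A.valuation a ≤ 1) (hb : A.valuation b ≤ 1) :
    A.valuation (a * b) ≤ 1 := by
  rw [map_mul]; exact mul_le_one₀ ha zero_le hb

/-- `2` is integral. -/
lemma val_two_le_one : A.valuation (2 : K) ≤ 1 := val_ofNat_le_one 2

/-- An integral element over a unit is integral. -/
lemma val_div_le {a b : K} (ha : A.valuation a ≤ 1) (hb : A.valuation b = 1) :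
    A.valuation (a / b) ≤ 1 := by
  rw [map_div₀, hb, div_one]; exact ha

/-- A non-unit over a unit is a non-unit. -/
lemma val_div_lt {a b : K} (ha : A.valuation a < 1) (hb : A.valuation b = 1) :
    A.valuation (a / b) < 1 := by
  rw [map_div₀, hb, div_one]; exact ha

/-- A sum of integral elements is integral. -/
lemma val_sum_le {ι : Type*} (s : Finset ι) {f : ι → K} (h : ∀ i ∈ s, A.valuation (f i) ≤ 1) :
    A.valuation (∑ i ∈ s, f i) ≤ 1 :=
  Valuation.map_sum_le _ h

/-- A sum of non-units is a non-unit. -/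
lemma val_sum_lt {ι : Type*} (s : Finset ι) {f : ι → K} (h : ∀ i ∈ s, A.valuation (f i) < 1) :
    A.valuation (∑ i ∈ s, f i) < 1 :=
  Valuation.map_sum_lt _ one_ne_zero h

/-- The integral point `(x, y)` reduces to a singular point. -/
structure Sing (A : ValuationSubring K) (E : WeierstrassCurve.Affine K) (x y : K) : Prop where
  memX : A.valuation x ≤ 1
  memY : A.valuation y ≤ 1
  hY : A.valuation (2 * y + E.a₁ * x + E.a₃) < 1
  hX : A.valuation (E.a₁ * y - (3 * x ^ 2 + 2 * E.a₂ * x + E.a₄)) < 1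

variable {E V : WeierstrassCurve.Affine K}

/-- Singularity propagates to close points of congruent curves. -/
theorem Sing.of_near (hE : IntegralCoeffs A E) (hV : IntegralCoeffs A V)
    (d1 : A.valuation (E.a₁ - V.a₁) < 1) (d2 : A.valuation (E.a₂ - V.a₂) < 1)
    (d3 : A.valuation (E.a₃ - V.a₃) < 1) (d4 : A.valuation (E.a₄ - V.a₄) < 1)
    (d6 : A.valuation (E.a₆ - V.a₆) < 1) {x y x' y' : K} (h : E.Equation x y)
    (h' : V.Equation x' y') (hx : A.valuation (x - x') < 1) (hs : Sing A V x' y') :
    Sing A E x y := by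
  set v := A.valuation
  have hxle : v x ≤ 1 := by
    rw [show x = (x - x') + x' by ring]
    exact v.map_add_le hx.le hs.memX
  have hyle : v y ≤ 1 :=
    (A.valuation_le_one_iff _).mpr (hE.mem_Y h ((A.valuation_le_one_iff _).mp hxle))
  have e := (Affine.equation_iff ..).mp h
  have e' := (Affine.equation_iff ..).mp h'
  have hd1 : v (V.a₁ * x' - E.a₁ * x) < 1 := by
    rw [show V.a₁ * x' - E.a₁ * x = -((E.a₁ - V.a₁) * x) + V.a₁ * -(x - x') by ring]
    refine v.map_add_lt ?_ (val_mul_lt hV.a₁ (by rwa [Valuation.map_neg]))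
    rw [Valuation.map_neg, mul_comm]; exact val_mul_lt hxle d1
  have hsq : v (x ^ 2 + x * x' + x' ^ 2) ≤ 1 :=
    v.map_add_le (v.map_add_le (by rw [map_pow]; exact pow_le_one₀ zero_le hxle)
      (val_mul_le hxle hs.memX)) (by rw [map_pow]; exact pow_le_one₀ zero_le hs.memX)
  have hprod : v ((y - y') ^ 2 + (y - y') * (2 * y' + V.a₁ * x' + V.a₃)) < 1 := by
    rw [show (y - y') ^ 2 + (y - y') * (2 * y' + V.a₁ * x' + V.a₃) =
      y * (V.a₁ * x' - E.a₁ * x) + y * -(E.a₃ - V.a₃) + (x ^ 2 + x * x' + x' ^ 2) * (x - x')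
        + x ^ 2 * (E.a₂ - V.a₂) + V.a₂ * (x + x') * (x - x') + x * (E.a₄ - V.a₄)
        + V.a₄ * (x - x') + (E.a₆ - V.a₆) by linear_combination e - e']
    have hxx : v (x + x') ≤ 1 := v.map_add_le hxle hs.memX
    refine v.map_add_lt (v.map_add_lt (v.map_add_lt (v.map_add_lt (v.map_add_lt (v.map_add_lt
      (v.map_add_lt (val_mul_lt hyle hd1) (val_mul_lt hyle (by rwa [Valuation.map_neg]))) ?_) ?_)
      ?_) (val_mul_lt hxle d4)) (val_mul_lt hV.a₄ hx)) d6
    · exact val_mul_lt hsq hx
    · exact val_mul_lt (by rw [map_pow]; exact pow_le_one₀ zero_le hxle) d2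
    · exact val_mul_lt (val_mul_le hV.a₂ hxx) hx
  have hd : v (y - y') < 1 := by
    by_contra! hge
    have h1 : v ((y - y') * (2 * y' + V.a₁ * x' + V.a₃)) < v ((y - y') ^ 2) := by
      rw [map_mul, map_pow, sq]
      exact mul_lt_mul_of_pos_left (hs.hY.trans_le hge) (zero_lt_one.trans_le hge)
    rw [Valuation.map_add_eq_of_lt_left _ h1, map_pow] at hprod
    exact absurd hprod (not_lt.mpr (one_le_pow₀ hge))
  refine ⟨hxle, hyle, ?_, ?_⟩
  · rw [show 2 * y + E.a₁ * x + E.a₃ = (2 * y' + V.a₁ * x' + V.a₃) + 2 * (y - y')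
      + -(V.a₁ * x' - E.a₁ * x) + (E.a₃ - V.a₃) by ring]
    exact v.map_add_lt (v.map_add_lt (v.map_add_lt hs.hY (val_mul_lt val_two_le_one hd))
      (by rwa [Valuation.map_neg])) d3
  · rw [show E.a₁ * y - (3 * x ^ 2 + 2 * E.a₂ * x + E.a₄) =
      (V.a₁ * y' - (3 * x' ^ 2 + 2 * V.a₂ * x' + V.a₄)) + V.a₁ * (y - y') + y * (E.a₁ - V.a₁)
        + (-3 * (x + x')) * (x - x') + (-2 * x) * (E.a₂ - V.a₂) + (-2 * V.a₂) * (x - x')
        + -(E.a₄ - V.a₄) by ring]
    have h2 : v (-2 : K) ≤ 1 := by rw [Valuation.map_neg]; exact val_two_le_one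
    have h3 : v (-3 : K) ≤ 1 := by rw [Valuation.map_neg]; exact val_ofNat_le_one 3
    exact v.map_add_lt (v.map_add_lt (v.map_add_lt (v.map_add_lt (v.map_add_lt (v.map_add_lt
      hs.hX (val_mul_lt hV.a₁ hd)) (val_mul_lt hyle d1))
      (val_mul_lt (val_mul_le h3 (v.map_add_le hxle hs.memX)) hx))
      (val_mul_lt (val_mul_le h2 hxle) d2)) (val_mul_lt (val_mul_le h2 hV.a₂) hx))
      (by rwa [Valuation.map_neg])

/-- Congruence of a curve with itself. -/
theorem Sing.of_near_self (hE : IntegralCoeffs A E) {x y x' y' : K} (h : E.Equation x y)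
    (h' : E.Equation x' y') (hx : A.valuation (x - x') < 1) (hs : Sing A E x' y') :
    Sing A E x y :=
  Sing.of_near hE hE (by simp) (by simp) (by simp) (by simp) (by simp) h h' hx hs

/-- The singular integral point condition on points. -/
def SingP (A : ValuationSubring K) {E : WeierstrassCurve.Affine K} : E.Point → Prop
  | .zero => False
  | .some x y _ => Sing A E x y

/-- A point with singular reduction is exactly one outside `goodSubgroup`. -/
theorem singP_iff [DecidableEq K] {k : Type v} [Field k] [DecidableEq k] {φ : A →+* k}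
    [IsLocalHom φ] {F : WeierstrassCurve.Affine k} (hEF : CurveRed φ E F) (P : E.Point) :
    SingP A P ↔ P ∉ goodSubgroup hEF := by
  rcases P with _ | ⟨x, y, h⟩
  · exact iff_of_false id (fun hn => hn ⟨0, pointRed_zero⟩)
  rw [mem_goodSubgroup]
  by_cases hx : x ∈ A
  · have hy := hEF.mem_Y h.1 hx
    have rx := Red.of_mem φ hx
    have ry := Red.of_mem φ hy
    have r1 := (((Red.ofNat φ 2).mul ry).add (hEF.a₁.mul rx)).add hEF.a₃
    have r2 := (hEF.a₁.mul ry).sub ((((Red.ofNat φ 3).mul (rx.pow 2)).add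
      (((Red.ofNat φ 2).mul hEF.a₂).mul rx)).add hEF.a₄)
    constructor
    · rintro hs ⟨Q, ⟨hx0, -⟩ | ⟨a, b, hn, ha, hb, -⟩⟩
      · exact hx0 hx
      · cases ha.unique rx
        cases hb.unique ry
        rcases ((Affine.nonsingular_iff' ..).mp hn).2 with h1 | h1
        · exact h1 (r2.valuation_lt_one_iff.mp hs.hX)
        · exact h1 (r1.valuation_lt_one_iff.mp hs.hY)
    · intro hn
      by_contra hs
      apply hn
      refine ⟨_, pointRed_some h ((Affine.nonsingular_iff' ..).mpr
        ⟨hEF.equation h.1 rx ry, ?_⟩) rx ry⟩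
      by_contra! hc
      exact hs ⟨(A.valuation_le_one_iff _).mpr hx, (A.valuation_le_one_iff _).mpr hy,
        r1.valuation_lt_one_iff.mpr hc.2, r2.valuation_lt_one_iff.mpr hc.1⟩
  · exact iff_of_false (fun hs => hx ((A.valuation_le_one_iff _).mp hs.memX))
      (fun hn => hn ⟨0, Or.inl ⟨hx, rfl⟩⟩)

/-- The reduction of an integral equation. -/
noncomputable def redOf (hE : IntegralCoeffs A E) :
    WeierstrassCurve.Affine (IsLocalRing.ResidueField A) :=
  ⟨IsLocalRing.residue A ⟨E.a₁, (A.valuation_le_one_iff _).mp hE.a₁⟩,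
    IsLocalRing.residue A ⟨E.a₂, (A.valuation_le_one_iff _).mp hE.a₂⟩,
    IsLocalRing.residue A ⟨E.a₃, (A.valuation_le_one_iff _).mp hE.a₃⟩,
    IsLocalRing.residue A ⟨E.a₄, (A.valuation_le_one_iff _).mp hE.a₄⟩,
    IsLocalRing.residue A ⟨E.a₆, (A.valuation_le_one_iff _).mp hE.a₆⟩⟩

/-- An integral curve maps to its reduction. -/
lemma curveRed_redOf (hE : IntegralCoeffs A E) :
    CurveRed (IsLocalRing.residue A) E (redOf hE) where
  a₁ := Red.of_mem _ _
  a₂ := Red.of_mem _ _
  a₃ := Red.of_mem _ _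
  a₄ := Red.of_mem _ _
  a₆ := Red.of_mem _ _

variable [DecidableEq K]

open scoped Classical in
/-- The points with nonsingular reduction. -/
noncomputable def goodPts (hE : IntegralCoeffs A E) : AddSubgroup E.Point :=
  goodSubgroup (curveRed_redOf hE)

open scoped Classical in
/-- `goodPts` consists of the points without singular reduction. -/
lemma mem_goodPts (hE : IntegralCoeffs A E) (P : E.Point) : P ∈ goodPts hE ↔ ¬ SingP A P := by
  rw [singP_iff (curveRed_redOf hE), not_not]; rfl

open scoped Classical in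
/-- A smooth torsion point congruent to its opposite has order at most two. -/
theorem valuation_g_eq_one (hE : IntegralCoeffs A E) {n : ℕ} (hn : A.valuation (n : K) = 1)
    {x y : K} (h : E.Nonsingular x y) (hP : n • Affine.Point.some x y h = 0)
    (hns : ¬ Sing A E x y)
    (h2 : (Affine.Point.some x y h : E.Point) ≠ -Affine.Point.some x y h) :
    A.valuation x ≤ 1 ∧ A.valuation y ≤ 1 ∧
      A.valuation (2 * y + E.a₁ * x + E.a₃) = 1 := by
  set φ := IsLocalRing.residue A
  have hEF := curveRed_redOf hE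
  have hxA : x ∈ A := by
    by_contra hx
    exact Affine.Point.some_ne_zero h
      (hE.eq_zero_of_nsmul_eq_zero (P := Affine.Point.some x y h) hx hn hP)
  have hyA := hE.mem_Y h.1 hxA
  have hxle := (A.valuation_le_one_iff _).mpr hxA
  have hyle := (A.valuation_le_one_iff _).mpr hyA
  refine ⟨hxle, hyle, le_antisymm ?_ (le_of_not_gt fun hlt => h2 ?_)⟩
  · exact A.valuation.map_add_le (A.valuation.map_add_le (val_mul_le val_two_le_one hyle)
      (val_mul_le hE.a₁ hxle)) hE.a₃
  · have hmem : Affine.Point.some x y h ∈ goodSubgroup hEF := by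
      by_contra hng; exact hns ((singP_iff hEF _).mpr hng)
    obtain ⟨Q, hQ⟩ := hmem
    have hneg : -Q = Q := by
      rcases hQ with ⟨hx0, -⟩ | ⟨a, b, hab, ha, hb, rfl⟩
      · exact absurd hxA hx0
      · have hg := ((((Red.ofNat φ 2).mul hb).add (hEF.a₁.mul ha)).add
          hEF.a₃).valuation_lt_one_iff.mp hlt
        rw [Affine.Point.neg_some]
        congr 1
        rw [Affine.negY]
        linear_combination -hg
    have hnk : (n : IsLocalRing.ResidueField A) ≠ 0 := fun hz => by
      have := (Red.natCast φ n).valuation_lt_one_iff.mpr hz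
      rw [hn] at this
      exact lt_irrefl _ this
    refine hQ.eq_of_nsmul_eq_zero hEF hnk ?_ hP (by rw [smul_neg, hP, neg_zero])
    have := hQ.neg hEF
    rwa [hneg] at this

end Fermat.Agent.FreyQuotient
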