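import Fermat.Agent.FreyQuotient.Bad

/-!
# Quotient of a curve with a node lifted by a point of order two

The quotient of a curve with a node lifting to a point of order two, by a subgroup of odd order
with smooth reduction: again a node, lifted by the image of the point of order two.
-/

set_option autoImplicit false

namespace Fermat.Agent.FreyQuotient

open WeierstrassCurve Fermat.Agent.ECReduction Fermat.Agent.Isogeny Finset Polynomial

universe u

variable {K : Type u} [Field K]

section Algebra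

variable {E : WeierstrassCurve.Affine K} {A : ValuationSubring K}

/-- The cubic `(2 y + a₁ x + a₃)²` expanded at a point of order two. -/
lemma cubic_shift {r s : K} (he : E.Equation r s) (hg : 2 * s + E.a₁ * r + E.a₃ = 0) (Z : K) :
    4 * (r + Z) ^ 3 + E.b₂ * (r + Z) ^ 2 + 2 * E.b₄ * (r + Z) + E.b₆ =
      4 * Z ^ 3 + (E.b₂ + 12 * r) * Z ^ 2
        + 4 * (3 * r ^ 2 + 2 * E.a₂ * r + E.a₄ - E.a₁ * s) * Z := by
  have e := (Affine.equation_iff ..).mp he
  simp only [WeierstrassCurve.b₂, WeierstrassCurve.b₄, WeierstrassCurve.b₆]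
  linear_combination (-4 : K) * e + (2 * E.a₁ * Z + 2 * s + E.a₁ * r + E.a₃) * hg

/-- Equation of the curve from the square of `2 y + a₁ x + a₃`. -/
lemma equation_of_sq [NeZero (2 : K)] {x y : K}
    (h : (2 * y + E.a₁ * x + E.a₃) ^ 2 = 4 * x ^ 3 + E.b₂ * x ^ 2 + 2 * E.b₄ * x + E.b₆) :
    E.Equation x y := by
  rw [Affine.equation_iff]
  simp only [WeierstrassCurve.b₂, WeierstrassCurve.b₄, WeierstrassCurve.b₆] at h
  refine mul_left_cancel₀ (mul_ne_zero (two_ne_zero' K) two_ne_zero) ?_
  linear_combination h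

/-- Two singular integral points have congruent abscissas. -/
lemma Sing.near_unique {x y r s : K} (he : E.Equation r s) (h : E.Equation x y)
    (hr : Sing A E r s) (hs : Sing A E x y) : A.valuation (x - r) < 1 := by
  have e := (Affine.equation_iff ..).mp he
  have e' := (Affine.equation_iff ..).mp h
  have hd : A.valuation (y - s) ≤ 1 := A.valuation.map_sub_le hs.memY hr.memY
  have hx : A.valuation (x - r) ≤ 1 := A.valuation.map_sub_le hs.memX hr.memX
  have h3 : A.valuation ((x - r) ^ 3) < 1 := by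
    rw [show (x - r) ^ 3 = -((y - s) * (2 * y + E.a₁ * x + E.a₃))
        + -((x - r) * (E.a₁ * y - (3 * x ^ 2 + 2 * E.a₂ * x + E.a₄)))
        + -((y - s) * (2 * s + E.a₁ * r + E.a₃))
        + -((x - r) * (E.a₁ * s - (3 * r ^ 2 + 2 * E.a₂ * r + E.a₄))) by
      linear_combination 2 * (e' - e)]
    refine A.valuation.map_add_lt (A.valuation.map_add_lt (A.valuation.map_add_lt ?_ ?_) ?_) ?_ <;>
      rw [Valuation.map_neg]
    exacts [val_mul_lt hd hs.hY, val_mul_lt hx hs.hX, val_mul_lt hd hr.hY, val_mul_lt hx hr.hX]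
  rw [map_pow] at h3
  exact lt_of_not_ge fun hge => absurd h3 (not_lt.mpr (one_le_pow₀ hge))

/-- The roots of `Z² + (c/4) Z + D` for a unit `c` and a small `D`. -/
lemma exists_roots_split [IsAlgClosed K] [NeZero (2 : K)] {c D : K} (hc : A.valuation c = 1)
    (hD : A.valuation D < 1) :
    ∃ zj zk : K, zj + zk = -(c / 4) ∧ zj * zk = D ∧
      A.valuation zk = (A.valuation (4 : K))⁻¹ ∧
      A.valuation zj = A.valuation D * A.valuation (4 : K) ∧ A.valuation zj < 1 ∧
      1 ≤ A.valuation zk := by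
  have h40 : (4 : K) ≠ 0 := by
    rw [show (4 : K) = 2 * 2 by norm_num]; exact mul_ne_zero two_ne_zero two_ne_zero
  obtain ⟨z, hz⟩ := IsAlgClosed.exists_root (C 1 * X ^ 2 + C (c / 4) * X + C D)
    (by rw [degree_quadratic one_ne_zero]; decide)
  simp only [map_one, one_mul, IsRoot, eval_add, eval_pow, eval_X, eval_mul, eval_C] at hz
  obtain ⟨zj, zk, hsum, hprod, hle⟩ : ∃ zj zk : K, zj + zk = -(c / 4) ∧ zj * zk = D ∧
      A.valuation zj ≤ A.valuation zk := by
    rcases le_total (A.valuation z) (A.valuation (-(c / 4) - z)) with h | h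
    · exact ⟨z, -(c / 4) - z, by ring, by linear_combination -hz, h⟩
    · exact ⟨-(c / 4) - z, z, by ring, by linear_combination -hz, h⟩
  have hw : A.valuation (zj + zk) = (A.valuation (4 : K))⁻¹ := by
    rw [hsum, Valuation.map_neg, map_div₀, hc, one_div]
  have h4pos : 0 < A.valuation (4 : K) := (Valuation.pos_iff _).mpr h40
  have h4le : A.valuation (4 : K) ≤ 1 := val_ofNat_le_one 4
  have h1 : 1 ≤ (A.valuation (4 : K))⁻¹ := (one_le_inv₀ h4pos).mpr h4le
  have hge : (A.valuation (4 : K))⁻¹ ≤ A.valuation zk :=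
    hw ▸ (A.valuation.map_add zj zk).trans (max_le hle le_rfl)
  have hk : A.valuation zk = (A.valuation (4 : K))⁻¹ := by
    refine le_antisymm (le_of_not_gt fun hlt => ?_) hge
    have hjk : A.valuation zj = A.valuation zk := by
      by_contra hne
      rw [Valuation.map_add_eq_of_lt_right _ (lt_of_le_of_ne hle hne)] at hw
      exact hlt.ne' hw
    have : 1 ≤ A.valuation D := by
      rw [← hprod, map_mul, hjk]; exact one_le_mul (h1.trans hge) (h1.trans hge)
    exact absurd hD (not_lt.mpr this)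
  have hj : A.valuation zj = A.valuation D * A.valuation (4 : K) := by
    rw [← hprod, map_mul, hk, inv_mul_cancel_right₀ h4pos.ne']
  refine ⟨zj, zk, hsum, hprod, hk, hj, ?_, h1.trans hge⟩
  rw [hj]
  exact lt_of_le_of_lt (mul_le_of_le_one_right' h4le) hD

end Algebra

variable [DecidableEq K] {E : WeierstrassCurve.Affine K} {C : AddSubgroup E.Point} [Finite C]
  [NeZero (2 : K)] [E.IsElliptic] [IsAlgClosed K] {A : ValuationSubring K}

omit [NeZero (2 : K)] [E.IsElliptic] [IsAlgClosed K] in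
/-- A point of order two is not in `C`. -/
lemma two_torsion_not_mem (hodd : Odd (Nat.card C)) {T : E.Point} (h0 : T ≠ 0) (hT : -T = T) :
    T ∉ C := fun hC => ne_neg_of_mem_Cs hodd ((mem_Cs C).mpr ⟨h0, hC⟩) hT.symm

omit [E.IsElliptic] [IsAlgClosed K] in
lemma Gv_two_torsion {T : E.Point} (hT : -T = T) : Gv C T = 0 := by
  have h := Gv_neg C T
  rw [hT, eq_neg_iff_add_eq_zero, ← two_mul, mul_eq_zero] at h
  exact h.resolve_left two_ne_zero

/-- The numerator of `Xv - Xv T` vanishes exactly on the coset of `T`. -/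
theorem Np_eq_prod (hodd : Odd (Nat.card C)) {T : E.Point} (h0 : T ≠ 0) (hT : -T = T) :
    Np C (Xv C T) = ∏ Q ∈ Cf C, (X - Polynomial.C (xc (T + Q))) := by
  classical
  have hTC := two_torsion_not_mem hodd h0 hT
  obtain ⟨hm, hd⟩ := monic_natDegree_Np (C := C) hodd (Xv C T)
  set M : Multiset K := (Cf C).val.map fun Q => xc (T + Q) with hM
  have hP : ∀ Q ∈ Cf C, T + Q ∉ C ∧ Xv C (T + Q) = Xv C T ∧ Gv C (T + Q) = 0 := fun Q hQ => by
    rw [mem_Cf] at hQ
    exact ⟨fun h => hTC (by simpa using sub_mem h hQ), Xv_add C hQ,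
      (Gv_add C hQ).trans (Gv_two_torsion hT)⟩
  have hle : M ≤ (Np C (Xv C T)).roots := by
    rw [Multiset.le_iff_count]
    intro a
    rw [count_roots, hM, Multiset.count_map]
    rcases Multiset.empty_or_exists_mem ((Cf C).val.filter fun Q => a = xc (T + Q)) with he | ⟨Q, hQ⟩
    · simp [he]
    obtain ⟨hQC, rfl⟩ := Multiset.mem_filter.mp hQ
    obtain ⟨hPC, hX, hG⟩ := hP Q hQC
    have hroot : (Np C (Xv C T)).IsRoot (xc (T + Q)) := by
      rw [IsRoot, eval_Np hodd hPC, hX, sub_self, zero_mul]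
    show (((Cf C).filter fun R => xc (T + Q) = xc (T + R)).card) ≤ _
    have hsub : ((Cf C).filter fun R => xc (T + Q) = xc (T + R)).image (T + ·) ⊆
        {T + Q, -(T + Q)} := by
      intro P hP'
      obtain ⟨R, hR, rfl⟩ := Finset.mem_image.mp hP'
      obtain ⟨hRC, hx⟩ := Finset.mem_filter.mp hR
      simp only [Finset.mem_insert, Finset.mem_singleton]
      generalize hP1 : T + Q = P₁ at hx hPC ⊢
      generalize hP2 : T + R = P₂ at hx ⊢
      have h2 : P₂ ≠ 0 := fun h => (hP R hRC).1 (by rw [hP2, h]; exact zero_mem C)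
      cases P₁ with
      | zero => exact absurd (zero_mem C) hPC
      | some x y hxy =>
        cases P₂ with
        | zero => exact absurd rfl h2
        | some x' y' hxy' =>
          exact (Affine.Point.X_eq_iff (h₁ := hxy') (h₂ := hxy)).mp hx.symm
    rw [← Finset.card_image_of_injective _ (add_right_injective T)]
    refine (Finset.card_le_card hsub).trans ?_
    by_cases hg : gc (T + Q) = 0
    · have hneg : -(T + Q) = T + Q := by
        generalize T + Q = P at hg ⊢
        cases P with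
        | zero => rfl
        | some x y h =>
          rw [gc_some] at hg
          rw [Affine.Point.neg_some]
          congr 1
          rw [Affine.negY]
          linear_combination -hg
      rw [hneg]
      simpa [Nat.one_le_iff_ne_zero] using
        (rootMultiplicity_pos (Np_ne_zero hodd _)).mpr hroot |>.ne'
    · exact Finset.card_le_two.trans ((one_lt_rootMultiplicity_iff_isRoot (Np_ne_zero hodd _)).mpr
        ⟨hroot, eval_derivative_Np hodd hPC hX hG hg⟩)
  have hcard : Multiset.card M = (Np C (Xv C T)).natDegree := by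
    rw [hd, hM, Multiset.card_map, Finset.card_val, card_Cf]
  have heq : M = (Np C (Xv C T)).roots :=
    Multiset.eq_of_le_of_card_le hle (hcard ▸ card_roots' _)
  conv_lhs => rw [← prod_multiset_X_sub_C_of_monic_of_roots_card_eq hm (heq ▸ hcard), ← heq, hM]
  rw [Multiset.map_map]
  rfl

/-- The data of a node lifted by a point of order two. -/
structure Node (A : ValuationSubring K) (E : WeierstrassCurve.Affine K) (r s : K) : Prop where
  ns : E.Nonsingular r s
  two : 2 * s + E.a₁ * r + E.a₃ = 0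
  sing : Sing A E r s
  c4 : A.valuation E.c₄ = 1

omit [DecidableEq K] [E.IsElliptic] in
/-- Near a node the cubic `(2 y + a₁ x + a₃)²` has, besides the node, a root `r + zj` reducing to
it and a root `r + zk` reducing elsewhere. -/
theorem Node.exists_shift_roots (hE : IntegralCoeffs A E) {r s : K} (hN : Node A E r s) :
    ∃ zj zk : K,
      (∀ Z : K, 4 * (r + Z) ^ 3 + E.b₂ * (r + Z) ^ 2 + 2 * E.b₄ * (r + Z) + E.b₆ =
        4 * Z * ((Z - zj) * (Z - zk))) ∧
      A.valuation (zj * zk) < 1 ∧ zj ≠ 0 ∧ zk ≠ 0 ∧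
      A.valuation zj < 1 ∧ 1 ≤ A.valuation zk ∧ A.valuation zk = (A.valuation (4 : K))⁻¹ := by
  set v := A.valuation with hv
  set c := E.b₂ + 12 * r with hcdef
  set D := 3 * r ^ 2 + 2 * E.a₂ * r + E.a₄ - E.a₁ * s with hDdef
  have hDsmall : v D < 1 := by
    rw [show D = -(E.a₁ * s - (3 * r ^ 2 + 2 * E.a₂ * r + E.a₄)) by ring, Valuation.map_neg]
    exact hN.sing.hX
  have hD0 : D ≠ 0 := by
    intro h0
    rcases ((Affine.nonsingular_iff' ..).mp hN.ns).2 with h1 | h1
    · exact h1 (by linear_combination -h0)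
    · exact h1 hN.two
  have hc : v c = 1 := by
    have h := hN.c4
    rw [c₄_eq_shift E r s, hN.two, mul_zero, add_zero, ← hcdef, ← hDdef] at h
    have h48 : v (24 * (2 * D)) < 1 :=
      val_mul_lt (val_ofNat_le_one 24) (val_mul_lt val_two_le_one hDsmall)
    have hcle : v c ≤ 1 := A.valuation.map_add_le (val_b₂ hE)
      (val_mul_le (val_ofNat_le_one 12) hN.sing.memX)
    refine le_antisymm hcle (le_of_not_gt fun hlt => h.not_lt ?_)
    exact lt_of_le_of_lt (A.valuation.map_sub _ _)
      (max_lt (by rw [map_pow]; exact pow_lt_one₀ zero_le hlt two_ne_zero) h48)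
  obtain ⟨zj, zk, hsum, hprod, hk, -, hj1, hk1⟩ := exists_roots_split hc hDsmall
  have h40 : (4 : K) ≠ 0 := by
    rw [show (4 : K) = 2 * 2 by norm_num]; exact mul_ne_zero two_ne_zero two_ne_zero
  have hsum' : 4 * (zj + zk) = -c := by rw [hsum, mul_neg, mul_div_cancel₀ _ h40]
  refine ⟨zj, zk, fun Z => ?_, hprod ▸ hDsmall, fun h0 => hD0 (by rw [← hprod, h0, zero_mul]),
    fun h0 => hD0 (by rw [← hprod, h0, mul_zero]), hj1, hk1, hk⟩
  rw [cubic_shift hN.ns.1 hN.two, ← hcdef, ← hDdef]
  linear_combination Z ^ 2 * hsum' - 4 * Z * hprod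

omit [DecidableEq K] [IsAlgClosed K] in
/-- A root of `(2 y + a₁ x + a₃)²` is the abscissa of a point of order two. -/
theorem exists_twoTorsion_of_root {x : K}
    (hx : 4 * x ^ 3 + E.b₂ * x ^ 2 + 2 * E.b₄ * x + E.b₆ = 0) :
    ∃ P : E.Point, P ≠ 0 ∧ -P = P ∧ xc P = x := by
  have he : E.Equation x (-(E.a₁ * x + E.a₃) / 2) := by
    refine equation_of_sq ?_
    rw [hx, show 2 * (-(E.a₁ * x + E.a₃) / 2) + E.a₁ * x + E.a₃ = 0 by field_simp; ring]
    ring
  refine ⟨.some _ _ ((Affine.equation_iff_nonsingular ..).mp he), Affine.Point.some_ne_zero _,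
    ?_, rfl⟩
  rw [Affine.Point.neg_some]
  congr 1
  rw [Affine.negY]
  field_simp
  ring

/-- The images `X₀` of `T` and `X₀ + ζ` of another point of order two, `z` apart on the abscissae,
are roots of the cubic of the quotient, and `ζ` is given by a product formula. -/
theorem exists_image_twoTorsion (hodd : Odd (Nat.card C)) {T P : E.Point} (hT0 : T ≠ 0)
    (hT : -T = T) (hP0 : P ≠ 0) (hP : -P = P) {z : K} (hz : z ≠ 0) (hx : xc P = xc T + z) :
    ∃ ζ : K, ζ ≠ 0 ∧ (FV C).eval (Xv C T + ζ) = 0 ∧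
      ζ * (∏ Q ∈ Cs C, (xc T + z - xc Q)) = z * ∏ Q ∈ Cs C, (xc T + z - xc (T + Q)) := by
  have hTC := two_torsion_not_mem hodd hT0 hT
  have hPC := two_torsion_not_mem hodd hP0 hP
  have hev := congrArg (eval (xc P)) (Np_eq_prod hodd hT0 hT)
  rw [eval_Np hodd hPC, Dp, eval_prod, eval_prod, Cs,
    ← Finset.mul_prod_erase _ _ ((mem_Cf C).mpr (zero_mem C)), hx] at hev
  simp only [eval_sub, eval_X, eval_C, add_zero] at hev
  rw [add_sub_cancel_left] at hev
  refine ⟨Xv C P - Xv C T, fun h0 => ?_, ?_, hev⟩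
  · rw [h0, zero_mul, eq_comm, mul_eq_zero, Finset.prod_eq_zero_iff] at hev
    rcases hev with hz0 | ⟨Q, hQ, hQ0⟩
    · exact hz hz0
    · have hQC := ((mem_Cs C).mp (show Q ∈ Cs C from hQ)).2
      rw [← hx, sub_eq_zero] at hQ0
      have hmem : P - T ∈ C := by
        generalize hU : T + Q = U at hQ0
        cases P with
        | zero => exact absurd rfl hP0
        | some x y h =>
          cases U with
          | zero => exact absurd (eq_neg_of_add_eq_zero_left hU ▸ neg_mem hQC) hTC
          | some x' y' h' =>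
            rcases (Affine.Point.X_eq_iff (h₁ := h) (h₂ := h')).mp hQ0 with he | he
            · rw [he, ← hU, add_sub_cancel_left]; exact hQC
            · rw [← hP, he, neg_neg, ← hU, add_sub_cancel_left]; exact hQC
      have hPT : P - T = 0 := by
        by_contra hne
        refine two_torsion_not_mem hodd hne ?_ hmem
        rw [neg_sub, sub_eq_add_neg T, hP, sub_eq_add_neg P, hT, add_comm]
      have := congrArg xc (sub_eq_zero.mp hPT)
      rw [hx] at this
      exact hz (add_eq_left.mp this)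
  · rw [add_sub_cancel, ← Gv_sq hPC, Gv_two_torsion hP, zero_pow two_ne_zero]

section

variable (hodd : Odd (Nat.card C)) (hE : IntegralCoeffs A E)
  (hn : A.valuation (Nat.card C : K) = 1) (hgood : ∀ Q ∈ C, ¬ SingP A Q) {r s : K}
  (hN : Node A E r s)

include hodd hE hn hgood hN

omit hodd [NeZero (2 : K)] [E.IsElliptic] [IsAlgClosed K] in
lemma val_r_sub_eq_one {a : K} (ha : a ∈ xs C) : A.valuation (r - a) = 1 := by
  obtain ⟨Q, hQ, rfl⟩ := mem_xs.mp ha
  obtain ⟨x, y, h, rfl, hx, -⟩ := coords_of_mem_Cs hE hn hQ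
  refine le_antisymm (A.valuation.map_sub_le hN.sing.memX hx) (le_of_not_gt fun hlt => ?_)
  exact hgood _ ((mem_Cs C).mp hQ).2 (Sing.of_near_self hE h.1 hN.ns.1
    (by rwa [← Valuation.map_sub_swap]) hN.sing)

omit [NeZero (2 : K)] [E.IsElliptic] [IsAlgClosed K] hodd hn in
/-- The translates of the node reduce to the node. -/
lemma val_translate_sub_lt {Q : E.Point} (hQ : Q ∈ Cs C) :
    A.valuation (xc (Affine.Point.some r s hN.ns + Q) - r) < 1 := by
  set T : E.Point := Affine.Point.some r s hN.ns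
  have hQC := ((mem_Cs C).mp hQ).2
  have hbad : SingP A (T + Q) := by
    by_contra hgd
    rw [← mem_goodPts hE] at hgd
    have hQg : Q ∈ goodPts hE := (mem_goodPts hE Q).mpr (hgood Q hQC)
    have := sub_mem hgd hQg
    rw [add_sub_cancel_right, mem_goodPts hE] at this
    exact this hN.sing
  generalize hP : T + Q = P at hbad ⊢
  cases P with
  | zero => exact hbad.elim
  | some x y h => exact hN.sing.near_unique hN.ns.1 h.1 hbad

omit [NeZero (2 : K)] [E.IsElliptic] [IsAlgClosed K] in
/-- The distances from the two other roots of the cubic to the abscissa of a point of `C`. -/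
lemma val_root_sub_xc {zj zk : K}
    (hfac : ∀ Z : K, 4 * (r + Z) ^ 3 + E.b₂ * (r + Z) ^ 2 + 2 * E.b₄ * (r + Z) + E.b₆ =
      4 * Z * ((Z - zj) * (Z - zk)))
    (hj1 : A.valuation zj < 1) {Q : E.Point} (hQ : Q ∈ Cs C) :
    A.valuation (r + zj - xc Q) = 1 ∧
      A.valuation (r + zk - xc Q) = (A.valuation (4 : K))⁻¹ := by
  have h1 := val_r_sub_eq_one hE hn hgood hN (mem_xs.mpr ⟨Q, hQ, rfl⟩)
  obtain ⟨x, y, h, rfl, hx, hy⟩ := coords_of_mem_Cs hE hn hQ
  simp only [xc_some] at h1 ⊢
  have hj' : A.valuation (r + zj - x) = 1 := by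
    rw [show r + zj - x = (r - x) + zj by ring,
      Valuation.map_add_eq_of_lt_left _ (h1.symm ▸ hj1), h1]
  refine ⟨hj', ?_⟩
  have hg := (valuation_g_eq_one hE hn h (card_nsmul_mem ((mem_Cs C).mp hQ).2)
    (hgood _ ((mem_Cs C).mp hQ).2) (ne_neg_of_mem_Cs hodd hQ)).2.2
  have hsq := gc_sq h
  have hfx := hfac (x - r)
  rw [add_sub_cancel, ← hsq] at hfx
  have hh := congrArg A.valuation hfx
  rw [map_pow, hg, one_pow, map_mul, map_mul, map_mul, show x - r - zj = -(r + zj - x) by ring,
    show x - r - zk = -(r + zk - x) by ring, Valuation.map_neg, Valuation.map_neg,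
    Valuation.map_sub_swap _ x r, h1, mul_one, hj', one_mul] at hh
  exact eq_inv_of_mul_eq_one_right hh.symm

/-- The image of the node is integral. -/
lemma val_Xv_node_le : A.valuation (Xv C (Affine.Point.some r s hN.ns)) ≤ 1 := by
  have hTC : Affine.Point.some r s hN.ns ∉ C := fun hmem => hgood _ hmem hN.sing
  rw [Xv_eq_xs hodd hTC]
  refine A.valuation.map_add_le hN.sing.memX (val_sum_le _ fun a ha => ?_)
  have h1 : A.valuation (xc (Affine.Point.some r s hN.ns) - a) = 1 :=
    val_r_sub_eq_one hE hn hgood hN ha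
  exact A.valuation.map_add_le (val_div_le (val_tx_le hE (val_xs_le hE hn ha)) h1)
    (val_div_le (val_ux_le hE (val_xs_le hE hn ha)) (by rw [map_pow, h1, one_pow]))

/-- The image of the node is a node. -/
theorem node_image {Y : K}
    (hY : 2 * Y + E.a₁ * Xv C (Affine.Point.some r s hN.ns) + E.a₃ = 0) :
    (veluCurve C).Equation (Xv C (Affine.Point.some r s hN.ns)) Y ∧
      Sing A (veluCurve C) (Xv C (Affine.Point.some r s hN.ns)) Y ∧
      A.valuation (veluCurve C).c₄ = 1 ∧ A.valuation (veluCurve C).Δ < 1 := by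
  set v := A.valuation with hv
  set T : E.Point := Affine.Point.some r s hN.ns with hTdef
  have hT0 : T ≠ 0 := Affine.Point.some_ne_zero _
  have hneg : -T = T := by
    rw [hTdef, Affine.Point.neg_some]
    congr 1
    rw [Affine.negY]
    linear_combination -hN.two
  have hTC := two_torsion_not_mem hodd hT0 hneg
  set X₀ := Xv C T
  obtain ⟨zj, zk, hfac, hprodlt, hzj0, hzk0, hj1, hk1, hk⟩ := hN.exists_shift_roots hE
  have h40 : (4 : K) ≠ 0 := by
    rw [show (4 : K) = 2 * 2 by norm_num]; exact mul_ne_zero two_ne_zero two_ne_zero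
  have h4pos : 0 < v (4 : K) := (Valuation.pos_iff _).mpr h40
  -- the images of the other points of order two
  obtain ⟨Pj, hPj0, hPjn, hPjx⟩ :=
    exists_twoTorsion_of_root (E := E) (x := r + zj) (by rw [hfac]; ring)
  obtain ⟨Pk, hPk0, hPkn, hPkx⟩ :=
    exists_twoTorsion_of_root (E := E) (x := r + zk) (by rw [hfac]; ring)
  obtain ⟨ζj, hζj0, hζjR, hζj⟩ := exists_image_twoTorsion hodd hT0 hneg hPj0 hPjn hzj0 hPjx
  obtain ⟨ζk, hζk0, hζkR, hζk⟩ := exists_image_twoTorsion hodd hT0 hneg hPk0 hPkn hzk0 hPkx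
  rw [show xc T = r from rfl] at hζj hζk
  have hQv : ∀ Q ∈ Cs C, v (r + zj - xc Q) = 1 ∧ v (r + zk - xc Q) = (v (4 : K))⁻¹ := fun Q hQ =>
    val_root_sub_xc hodd hE hn hgood hN hfac hj1 hQ
  have hTv : ∀ Q ∈ Cs C, v (r + zj - xc (T + Q)) ≤ 1 ∧
      v (r + zk - xc (T + Q)) = (v (4 : K))⁻¹ := by
    intro Q hQ
    have h1 := val_translate_sub_lt hE hgood hN hQ
    constructor
    · rw [show r + zj - xc (T + Q) = zj + -(xc (T + Q) - r) by ring]
      exact A.valuation.map_add_le hj1.le (by rw [Valuation.map_neg]; exact h1.le)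
    · rw [show r + zk - xc (T + Q) = zk + -(xc (T + Q) - r) by ring,
        Valuation.map_add_eq_of_lt_left _ (by rw [Valuation.map_neg]; exact h1.trans_le hk1), hk]
  have hζjv : v ζj ≤ v zj := by
    have h := congrArg v hζj
    rw [map_mul, map_mul, map_prod, map_prod,
      Finset.prod_eq_one fun Q hQ => (hQv Q hQ).1, mul_one] at h
    rw [h]
    exact mul_le_of_le_one_right' (Finset.prod_le_one' fun Q hQ => (hTv Q hQ).1)
  have hζkv : v ζk = v zk := by
    have h := congrArg v hζk
    rw [map_mul, map_mul, map_prod, map_prod, Finset.prod_congr rfl fun Q hQ => (hQv Q hQ).2,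
      Finset.prod_congr rfl fun Q hQ => (hTv Q hQ).2] at h
    exact mul_right_cancel₀ (by simp [h40]) h
  -- the image curve
  have hI := integralCoeffs_veluCurve hodd hE hn
  have hX₀ : v X₀ ≤ 1 := val_Xv_node_le hodd hE hn hgood hN
  have hVeq : (veluCurve C).Equation X₀ Y := by
    refine equation_of_sq ?_
    rw [show 2 * Y + (veluCurve C).a₁ * X₀ + (veluCurve C).a₃ = 0 from hY]
    have h := Gv_sq (C := C) hTC
    rw [Gv_two_torsion hneg, FV_eq] at h
    simp only [twoTorsionPolynomial, Cubic.toPoly, eval_add, eval_mul, eval_C, eval_pow,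
      eval_X] at h
    exact h
  have hYle : v Y ≤ 1 :=
    (A.valuation_le_one_iff _).mpr (hI.mem_Y hVeq ((A.valuation_le_one_iff _).mp hX₀))
  set c' := (veluCurve C).b₂ + 12 * X₀ with hc'def
  set D' := 3 * X₀ ^ 2 + 2 * (veluCurve C).a₂ * X₀ + (veluCurve C).a₄ - (veluCurve C).a₁ * Y
    with hD'def
  have hshift : ∀ ζ : K, ζ ≠ 0 → (FV C).eval (X₀ + ζ) = 0 → 4 * ζ ^ 2 + c' * ζ + 4 * D' = 0 := by
    intro ζ h0 hR
    rw [FV_eq] at hR
    simp only [twoTorsionPolynomial, Cubic.toPoly, eval_add, eval_mul, eval_C, eval_pow,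
      eval_X] at hR
    have h := cubic_shift hVeq hY ζ
    rw [hR, ← hc'def, ← hD'def] at h
    exact mul_left_cancel₀ h0 (by linear_combination -h)
  have hzjk : v zj < v zk := hj1.trans_le hk1
  have hne : ζj ≠ ζk := fun h => absurd hzjk (not_lt.mpr (hζkv ▸ h ▸ hζjv))
  have hej := hshift ζj hζj0 hζjR
  have hek := hshift ζk hζk0 hζkR
  have hc'eq : c' = -4 * (ζj + ζk) :=
    mul_left_cancel₀ (sub_ne_zero.mpr hne) (by linear_combination hej - hek)
  have hD'eq : D' = ζj * ζk :=
    mul_left_cancel₀ h40 (by linear_combination hej - ζj * hc'eq)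
  have hD' : v D' < 1 := by
    refine lt_of_le_of_lt ?_ hprodlt
    rw [hD'eq, map_mul, map_mul, hζkv]
    exact mul_le_mul_left hζjv _
  have hsing : Sing A (veluCurve C) X₀ Y := by
    refine ⟨hX₀, hYle, ?_, ?_⟩
    · rw [show 2 * Y + (veluCurve C).a₁ * X₀ + (veluCurve C).a₃ = 0 from hY, map_zero]
      exact zero_lt_one
    · rw [show (veluCurve C).a₁ * Y - (3 * X₀ ^ 2 + 2 * (veluCurve C).a₂ * X₀ + (veluCurve C).a₄)
        = -D' by ring, Valuation.map_neg]
      exact hD'
  refine ⟨hVeq, hsing, ?_, val_Δ_lt _ hI hVeq hsing⟩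
  have hc' : v c' = 1 := by
    rw [hc'eq, map_mul, Valuation.map_neg,
      Valuation.map_add_eq_of_lt_right _ (lt_of_le_of_lt hζjv (hζkv ▸ hzjk)), hζkv, hk,
      mul_inv_cancel₀ h4pos.ne']
  rw [c₄_eq_shift (veluCurve C) X₀ Y,
    show 2 * Y + (veluCurve C).a₁ * X₀ + (veluCurve C).a₃ = 0 from hY, mul_zero, add_zero,
    ← hc'def, ← hD'def, Valuation.map_sub_eq_of_lt_left _ (by
      rw [map_pow, hc', one_pow]
      exact val_mul_lt (val_ofNat_le_one 24) (val_mul_lt val_two_le_one hD')),
    map_pow, hc', one_pow]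

/-- A singular point outside `C` maps to the node. -/
theorem toric_sing {x y X Y : K} (h : E.Nonsingular x y) (hC : Affine.Point.some x y h ∉ C)
    (hs : Sing A E x y) (hXY : (veluCurve C).Equation X Y)
    (hX : X = Xv C (Affine.Point.some x y h)) : Sing A (veluCurve C) X Y := by
  set T : E.Point := Affine.Point.some r s hN.ns with hTdef
  have hTC : T ∉ C := fun hmem => hgood T hmem hN.sing
  obtain ⟨heq, hsing, -, -⟩ := node_image hodd hE hn hgood hN
    (Y := -(E.a₁ * Xv C T + E.a₃) / 2) (by field_simp; ring)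
  refine Sing.of_near_self (integralCoeffs_veluCurve hodd hE hn) hXY heq ?_ hsing
  have hd : A.valuation (x - r) < 1 := hN.sing.near_unique hN.ns.1 h.1 hs
  rw [hX, Xv_eq_xs hodd hC, Xv_eq_xs hodd hTC]
  simp only [hTdef, xc_some]
  rw [add_sub_add_comm, ← Finset.sum_sub_distrib]
  refine A.valuation.map_add_lt hd (val_sum_lt _ fun a ha => ?_)
  have h1 : A.valuation (r - a) = 1 := val_r_sub_eq_one hE hn hgood hN ha
  have h2 : A.valuation (x - a) = 1 := by
    rw [show x - a = (r - a) + (x - r) by ring,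
      Valuation.map_add_eq_of_lt_left _ (h1.symm ▸ hd), h1]
  have n1 : r - a ≠ 0 := fun h0 => by simp [h0] at h1
  have n2 : x - a ≠ 0 := fun h0 => by simp [h0] at h2
  rw [show tx E a / (x - a) + ux E a / (x - a) ^ 2 - (tx E a / (r - a) + ux E a / (r - a) ^ 2) =
    (-(tx E a / ((x - a) * (r - a)))
      + -(ux E a * ((x - a) + (r - a)) / ((x - a) ^ 2 * (r - a) ^ 2))) * (x - r) by
    field_simp; ring]
  refine val_mul_lt (A.valuation.map_add_le ?_ ?_) hd <;> rw [Valuation.map_neg]
  · exact val_div_le (val_tx_le hE (val_xs_le hE hn ha)) (by rw [map_mul, h1, h2, one_mul])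
  · refine val_div_le (val_mul_le (val_ux_le hE (val_xs_le hE hn ha)) ?_) (by
      rw [map_mul, map_pow, map_pow, h1, h2, one_pow, one_mul])
    exact A.valuation.map_add_le h2.le h1.le

end

end Fermat.Agent.FreyQuotient
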