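import Fermat.Agent.Isogeny.Smooth
import Fermat.Agent.FreyQuotient.Sing

/-!
# Vélu sums over abscissae

Vélu's quantities as sums over abscissae, and their integrality.
-/

set_option autoImplicit false

namespace Fermat.Agent.FreyQuotient

open WeierstrassCurve Fermat.Agent.ECReduction Fermat.Agent.Isogeny Finset

universe u

variable {K : Type u} [Field K] [DecidableEq K] {E : WeierstrassCurve.Affine K}
  {C : AddSubgroup E.Point} [Finite C]

variable (C) in
/-- The abscissas of the nonzero points of `C`. -/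
noncomputable def xs : Finset K := (Cs C).image xc

/-- The elements of `xs` are the abscissae of nonzero points of `C`. -/
lemma mem_xs {a : K} : a ∈ xs C ↔ ∃ Q ∈ Cs C, xc Q = a := Finset.mem_image

/-- Sums over the nonzero points of a subgroup of odd order are twice the sums over abscissae. -/
lemma sum_Cs_eq_two_mul (hodd : Odd (Nat.card C)) (h : K → K) :
    ∑ Q ∈ Cs C, h (xc Q) = 2 * ∑ a ∈ xs C, h a := by
  rw [Finset.sum_comp, xs, Finset.mul_sum]
  refine Finset.sum_congr rfl fun a ha => ?_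
  obtain ⟨Q, hQ, rfl⟩ := Finset.mem_image.mp ha
  suffices hc : #({R ∈ Cs C | xc R = xc Q}) = 2 by rw [hc, two_smul, two_mul]
  rw [show ({R ∈ Cs C | xc R = xc Q} : Finset E.Point) = {Q, -Q} from ?_,
    Finset.card_pair (ne_neg_of_mem_Cs hodd hQ)]
  ext R
  simp only [Finset.mem_filter, Finset.mem_insert, Finset.mem_singleton]
  constructor
  · rintro ⟨hR, hx⟩
    rw [mem_Cs] at hR hQ
    cases R with
    | zero => exact absurd rfl hR.1
    | some x y hxy =>
      cases Q with
      | zero => exact absurd rfl hQ.1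
      | some x' y' hxy' => exact (Affine.Point.X_eq_iff (h₁ := hxy) (h₂ := hxy')).mp hx
  · rintro (rfl | rfl)
    · exact ⟨hQ, rfl⟩
    · exact ⟨neg_mem_Cs hQ, xc_neg Q⟩

variable [NeZero (2 : K)]

variable (E) in
/-- `t` as a function of the abscissa. -/
def tx (a : K) : K := 6 * a ^ 2 + E.b₂ * a + E.b₄

variable (E) in
/-- `u` as a function of the abscissa. -/
def ux (a : K) : K := 4 * a ^ 3 + E.b₂ * a ^ 2 + 2 * E.b₄ * a + E.b₆

omit [NeZero (2 : K)] [DecidableEq K] in
lemma uq_eq {Q : E.Point} (hQ : Q ≠ 0) : uq Q = ux E (xc Q) := by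
  cases Q with
  | zero => exact absurd rfl hQ
  | some x y h => exact gc_sq h

/-- Vélu's `t` as a sum over abscissae. -/
lemma tV_eq (hodd : Odd (Nat.card C)) : tV C = ∑ a ∈ xs C, tx E a := by
  rw [tV, show (∑ Q ∈ Cs C, tq Q) = ∑ Q ∈ Cs C, tx E (xc Q) from rfl,
    sum_Cs_eq_two_mul hodd, mul_div_cancel_left₀ _ two_ne_zero]

/-- Vélu's `w` as a sum over abscissae. -/
lemma wV_eq (hodd : Odd (Nat.card C)) : wV C = ∑ a ∈ xs C, (a * tx E a + ux E a) := by
  rw [wV, show (∑ Q ∈ Cs C, (xc Q * tq Q + uq Q)) =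
      ∑ Q ∈ Cs C, (xc Q * tx E (xc Q) + ux E (xc Q)) from Finset.sum_congr rfl fun Q hQ => by
        rw [uq_eq ((mem_Cs C).mp hQ).1]; rfl,
    sum_Cs_eq_two_mul hodd (fun a => a * tx E a + ux E a), mul_div_cancel_left₀ _ two_ne_zero]

/-- Vélu's abscissa map as a sum over abscissae. -/
lemma Xv_eq_xs [E.IsElliptic] [IsAlgClosed K] (hodd : Odd (Nat.card C)) {P : E.Point} (hP : P ∉ C) :
    Xv C P = xc P + ∑ a ∈ xs C, (tx E a / (xc P - a) + ux E a / (xc P - a) ^ 2) := by
  rw [Xv_eq hP, show (∑ Q ∈ Cs C, (tq Q / (xc P - xc Q) + uq Q / (xc P - xc Q) ^ 2)) =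
      ∑ Q ∈ Cs C, (tx E (xc Q) / (xc P - xc Q) + ux E (xc Q) / (xc P - xc Q) ^ 2) from
        Finset.sum_congr rfl fun Q hQ => by rw [uq_eq ((mem_Cs C).mp hQ).1]; rfl,
    sum_Cs_eq_two_mul hodd (fun a => tx E a / (xc P - a) + ux E a / (xc P - a) ^ 2),
    mul_div_cancel_left₀ _ two_ne_zero]

section Integral

variable {A : ValuationSubring K}

omit [Finite C] [NeZero (2 : K)] in
/-- The order of `C` kills its points. -/
lemma card_nsmul_mem {Q : E.Point} (hQ : Q ∈ C) : Nat.card C • Q = 0 :=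
  congr_arg Subtype.val (card_nsmul_eq_zero' : Nat.card C • (⟨Q, hQ⟩ : C) = 0)

omit [NeZero (2 : K)] in
/-- A nonzero point of `C` is integral. -/
lemma coords_of_mem_Cs (hE : IntegralCoeffs A E) (hn : A.valuation (Nat.card C : K) = 1)
    {Q : E.Point} (hQ : Q ∈ Cs C) :
    ∃ x y h, Q = Affine.Point.some x y h ∧ A.valuation x ≤ 1 ∧ A.valuation y ≤ 1 := by
  rw [mem_Cs] at hQ
  cases Q with
  | zero => exact absurd rfl hQ.1
  | some x y h =>
    have hx : x ∈ A := by
      by_contra hx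
      exact hQ.1 (hE.eq_zero_of_nsmul_eq_zero (P := Affine.Point.some x y h) hx hn
        (card_nsmul_mem hQ.2))
    exact ⟨x, y, h, rfl, (A.valuation_le_one_iff _).mpr hx,
      (A.valuation_le_one_iff _).mpr (hE.mem_Y h.1 hx)⟩

omit [DecidableEq K] [NeZero (2 : K)] in
/-- `b₂` is integral. -/
lemma val_b₂ (hE : IntegralCoeffs A E) : A.valuation E.b₂ ≤ 1 := by
  rw [WeierstrassCurve.b₂]
  exact A.valuation.map_add_le (by rw [map_pow]; exact pow_le_one₀ zero_le hE.a₁)
    (val_mul_le (val_ofNat_le_one 4) hE.a₂)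

omit [DecidableEq K] [NeZero (2 : K)] in
/-- `b₄` is integral. -/
lemma val_b₄ (hE : IntegralCoeffs A E) : A.valuation E.b₄ ≤ 1 := by
  rw [WeierstrassCurve.b₄]
  exact A.valuation.map_add_le (val_mul_le val_two_le_one hE.a₄) (val_mul_le hE.a₁ hE.a₃)

omit [DecidableEq K] [NeZero (2 : K)] in
/-- `b₆` is integral. -/
lemma val_b₆ (hE : IntegralCoeffs A E) : A.valuation E.b₆ ≤ 1 := by
  rw [WeierstrassCurve.b₆]
  exact A.valuation.map_add_le (by rw [map_pow]; exact pow_le_one₀ zero_le hE.a₃)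
    (val_mul_le (val_ofNat_le_one 4) hE.a₆)

omit [DecidableEq K] [NeZero (2 : K)] in
lemma val_pow_le {a : K} (ha : A.valuation a ≤ 1) (n : ℕ) : A.valuation (a ^ n) ≤ 1 := by
  rw [map_pow]; exact pow_le_one₀ zero_le ha

omit [DecidableEq K] [NeZero (2 : K)] in
/-- `t` is integral at an integral abscissa. -/
lemma val_tx_le (hE : IntegralCoeffs A E) {a : K} (ha : A.valuation a ≤ 1) :
    A.valuation (tx E a) ≤ 1 :=
  A.valuation.map_add_le (A.valuation.map_add_le (val_mul_le (val_ofNat_le_one 6) (val_pow_le ha 2))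
    (val_mul_le (val_b₂ hE) ha)) (val_b₄ hE)

omit [DecidableEq K] [NeZero (2 : K)] in
/-- `u` is integral at an integral abscissa. -/
lemma val_ux_le (hE : IntegralCoeffs A E) {a : K} (ha : A.valuation a ≤ 1) :
    A.valuation (ux E a) ≤ 1 :=
  A.valuation.map_add_le (A.valuation.map_add_le
    (A.valuation.map_add_le (val_mul_le (val_ofNat_le_one 4) (val_pow_le ha 3))
    (val_mul_le (val_b₂ hE) (val_pow_le ha 2)))
    (val_mul_le (val_mul_le val_two_le_one (val_b₄ hE)) ha)) (val_b₆ hE)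

omit [NeZero (2 : K)] in
/-- The abscissae of `C` are integral. -/
lemma val_xs_le (hE : IntegralCoeffs A E) (hn : A.valuation (Nat.card C : K) = 1) {a : K}
    (ha : a ∈ xs C) : A.valuation a ≤ 1 := by
  obtain ⟨Q, hQ, rfl⟩ := mem_xs.mp ha
  obtain ⟨x, y, h, rfl, hx, -⟩ := coords_of_mem_Cs hE hn hQ
  exact hx

/-- The quotient curve has integral coefficients. -/
theorem integralCoeffs_veluCurve (hodd : Odd (Nat.card C)) (hE : IntegralCoeffs A E)
    (hn : A.valuation (Nat.card C : K) = 1) : IntegralCoeffs A (veluCurve C) := by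
  have ht : A.valuation (tV C) ≤ 1 := by
    rw [tV_eq hodd]; exact val_sum_le _ fun a ha => val_tx_le hE (val_xs_le hE hn ha)
  have hw : A.valuation (wV C) ≤ 1 := by
    rw [wV_eq hodd]
    exact val_sum_le _ fun a ha => A.valuation.map_add_le
      (val_mul_le (val_xs_le hE hn ha) (val_tx_le hE (val_xs_le hE hn ha)))
      (val_ux_le hE (val_xs_le hE hn ha))
  refine ⟨hE.a₁, hE.a₂, hE.a₃, ?_, ?_⟩
  · exact A.valuation.map_sub_le hE.a₄ (val_mul_le (val_ofNat_le_one 5) ht)
  · exact A.valuation.map_sub_le (A.valuation.map_sub_le hE.a₆ (val_mul_le (val_b₂ hE) ht))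
      (val_mul_le (val_ofNat_le_one 7) hw)

omit [NeZero (2 : K)] [DecidableEq K] in
/-- `t` and `u` vanish at singular points. -/
lemma val_tx_ux_lt (hE : IntegralCoeffs A E) {x y : K} (h : E.Nonsingular x y)
    (hs : Sing A E x y) : A.valuation (tx E x) < 1 ∧ A.valuation (ux E x) < 1 := by
  constructor
  · rw [show tx E x = -2 * (E.a₁ * y - (3 * x ^ 2 + 2 * E.a₂ * x + E.a₄))
      + E.a₁ * (2 * y + E.a₁ * x + E.a₃) by
        simp only [tx, WeierstrassCurve.b₂, WeierstrassCurve.b₄]; ring]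
    exact A.valuation.map_add_lt
      (val_mul_lt (by rw [Valuation.map_neg]; exact val_two_le_one) hs.hX)
      (val_mul_lt hE.a₁ hs.hY)
  · rw [ux, ← gc_sq h, map_pow]
    exact pow_lt_one₀ zero_le hs.hY two_ne_zero

end Integral

section Shift

omit [DecidableEq K] [NeZero (2 : K)] in
/-- Invariants of a curve with a point, in terms of the two partial derivatives. -/
lemma c₄_eq_shift (V : WeierstrassCurve.Affine K) (x y : K) :
    V.c₄ = (V.b₂ + 12 * x) ^ 2 - 24 * (2 * (3 * x ^ 2 + 2 * V.a₂ * x + V.a₄ - V.a₁ * y)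
      + V.a₁ * (2 * y + V.a₁ * x + V.a₃)) := by
  simp only [WeierstrassCurve.c₄, WeierstrassCurve.b₂, WeierstrassCurve.b₄]; ring

variable {A : ValuationSubring K}

omit [DecidableEq K] [NeZero (2 : K)] in
/-- A curve with a point of singular reduction has small discriminant. -/
lemma val_Δ_lt (V : WeierstrassCurve.Affine K) (hV : IntegralCoeffs A V) {x y : K}
    (h : V.Equation x y) (hs : Sing A V x y) : A.valuation V.Δ < 1 := by
  have hΔ := V.variableChange_Δ ⟨1, x, 0, y⟩
  simp only [inv_one, Units.val_one, one_pow, one_mul] at hΔ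
  rw [← hΔ]
  set V' := (⟨1, x, 0, y⟩ : VariableChange K) • V with hV'
  have e := (Affine.equation_iff ..).mp h
  have i1 : A.valuation V'.a₁ ≤ 1 := by simp [hV', variableChange_a₁, hV.a₁]
  have i2 : A.valuation V'.a₂ ≤ 1 := by
    rw [show V'.a₂ = V.a₂ + 3 * x by simp [hV', variableChange_a₂]]
    exact A.valuation.map_add_le hV.a₂ (val_mul_le (val_ofNat_le_one 3) hs.memX)
  have s3 : A.valuation V'.a₃ < 1 := by
    rw [show V'.a₃ = 2 * y + V.a₁ * x + V.a₃ by simp [hV', variableChange_a₃]; ring]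
    exact hs.hY
  have s4 : A.valuation V'.a₄ < 1 := by
    rw [show V'.a₄ = -(V.a₁ * y - (3 * x ^ 2 + 2 * V.a₂ * x + V.a₄)) by
      simp [hV', variableChange_a₄]; ring, Valuation.map_neg]
    exact hs.hX
  have z6 : V'.a₆ = 0 := by
    simp [hV', variableChange_a₆]; linear_combination -e
  have hb2 : A.valuation V'.b₂ ≤ 1 :=
    A.valuation.map_add_le (by rw [map_pow]; exact pow_le_one₀ zero_le i1)
      (val_mul_le (val_ofNat_le_one 4) i2)
  have hb4 : A.valuation V'.b₄ < 1 :=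
    A.valuation.map_add_lt (val_mul_lt val_two_le_one s4) (val_mul_lt i1 s3)
  have hb6 : A.valuation V'.b₆ < 1 := by
    rw [WeierstrassCurve.b₆, z6, mul_zero, add_zero, map_pow]
    exact pow_lt_one₀ zero_le s3 two_ne_zero
  have hb8 : A.valuation V'.b₈ < 1 := by
    rw [show V'.b₈ = (-V'.a₁ * V'.a₄) * V'.a₃ + V'.a₂ * V'.a₃ * V'.a₃ + -(V'.a₄) * V'.a₄ by
      simp only [WeierstrassCurve.b₈, z6]; ring]
    exact A.valuation.map_add_lt (A.valuation.map_add_lt
      (val_mul_lt (val_mul_le (by rwa [Valuation.map_neg]) s4.le) s3)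
      (val_mul_lt (val_mul_le i2 s3.le) s3))
      (val_mul_lt (by rw [Valuation.map_neg]; exact s4.le) s4)
  rw [show V'.Δ = (-(V'.b₂ * V'.b₂)) * V'.b₈ + (-8 * V'.b₄ * V'.b₄) * V'.b₄
      + (-27 * V'.b₆) * V'.b₆ + (9 * V'.b₂ * V'.b₄) * V'.b₆ by
    rw [WeierstrassCurve.Δ]; ring]
  have h8 : A.valuation (-8 : K) ≤ 1 := by rw [Valuation.map_neg]; exact val_ofNat_le_one 8
  have h27 : A.valuation (-27 : K) ≤ 1 := by rw [Valuation.map_neg]; exact val_ofNat_le_one 27
  exact A.valuation.map_add_lt (A.valuation.map_add_lt (A.valuation.map_add_lt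
    (val_mul_lt (by rw [Valuation.map_neg]; exact val_mul_le hb2 hb2) hb8)
    (val_mul_lt (val_mul_le (val_mul_le h8 hb4.le) hb4.le) hb4))
    (val_mul_lt (val_mul_le h27 hb6.le) hb6))
    (val_mul_lt (val_mul_le (val_mul_le (val_ofNat_le_one 9) hb2) hb4.le) hb6)

end Shift

end Fermat.Agent.FreyQuotient
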